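import Fermat.Agent.S17.H320.WHM
import Fermat.Agent.S17.H290.GaussDefs

/-!
# S17 / tower H — GAUSS leaf WEIL (forms version of helper290) from (WHM)  (helper320)

`weil_of_whm : (∀ P, E.pt P ≠ 0) → WHMStatement E → H290.WeilStatement E`, hence
`weil : MultislotStatement K → PtStatement E → H290.WeilStatement E`.

For a fixed family `G` of forms of degree `e` with exact common zero divisor `Z` apply (WHM) to
the functions `aeval E.x (G p)` (`B = e m ∞ - Z`) and to the basis `E.x` (`B = m ∞`); the values
of `aeval E.x (G p)` at `P ≠ ∞` are `c ^ e * eval (pt P) (G p)`.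
-/

set_option autoImplicit false
set_option linter.unusedSectionVars false

noncomputable section

open AlgebraicCurve MvPolynomial

namespace Fermat.Agent.S17.H320

open Fermat.Agent.Lib.RR Fermat.Agent.S17.HWall Fermat.Agent.S17.HContract
open Fermat.Agent.S17.H230 Fermat.Agent.S17.H710 Fermat.Agent.S17.Wall

variable {K F : Type*} [Field K] [CharZero K] [Field F] [Algebra K F] [FF1 K F]

/-- the value at `P` of a polynomial expression in functions regular at `P` -/
theorem valAt_aeval {κ : Type*} (P : Place K F) (x : κ → F) (hx : ∀ k, RegAt P (x k))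
    (R : MvPolynomial κ K) :
    RegAt P (aeval x R) ∧ valAt P (aeval x R) = eval (fun k => valAt P (x k)) R := by
  let w : κ → P.toValuationSubring := fun k => ⟨x k, hx k⟩
  have h5 : ((aeval w R : P.toValuationSubring) : F) = aeval x R := by
    have := MvPolynomial.map_aeval (R := K) w P.toValuationSubring.subtype R
    rw [ValuationSubring.subtype_apply] at this
    rw [this, MvPolynomial.aeval_def]
    have hc : (P.toValuationSubring.subtype.comp (algebraMap K ↥P.toValuationSubring))
        = algebraMap K F := by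
      ext c
      rfl
    rw [hc]
    rfl
  have hreg : RegAt P (aeval x R) := by
    rw [← h5]
    exact (aeval w R).2
  refine ⟨hreg, ?_⟩
  have h1 : (fun k => valAt P (x k)) = fun k => valO P (w k) := by
    funext k
    rw [valAt_of_mem P (hx k)]
  rw [h1, valAt_of_mem P hreg]
  have h2 : eval (fun k => valO P (w k)) R = valO P (aeval w R) := by
    rw [← MvPolynomial.aeval_eq_eval]
    have := MvPolynomial.comp_aeval (R := K) (f := w) (valO P)
    have h3 := congrArg (fun φ : MvPolynomial κ K →ₐ[K] K => φ R) this
    simp only [AlgHom.comp_apply] at h3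
    rw [h3]
  rw [h2]
  congr 1
  exact Subtype.ext h5.symm

variable [Algebra.IsAlgebraic ℚ K]

theorem weil_of_whm (E : EmbData K F) (hpt : ∀ P : Place K F, E.pt P ≠ 0)
    (hW : WHMStatement E) : H290.WeilStatement E := by
  classical
  intro ι _ e G Z hG hZ hex
  set f : ι → F := fun p => aeval E.x (G p) with hf
  set B : Divisor K F := (e * E.m) • prim E.vinf - Z with hB
  have hexact : ExactPole f B := by
    intro P
    refine ⟨fun p => ?_, ?_⟩
    · by_cases h0 : f p = 0
      · exact Or.inl h0
      right
      have h1 := hex.1 p h0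
      rw [Finsupp.le_def] at h1
      have h2 := h1 P
      unfold zdiv at h2
      rw [dif_neg h0, Finsupp.add_apply, divOf_apply] at h2
      rw [hB, Finsupp.sub_apply]
      show _ ≤ P.ord (aeval E.x (G p))
      omega
    · obtain ⟨p, h0, h1⟩ := hex.2 P
      refine ⟨p, h0, ?_⟩
      unfold zdiv at h1
      rw [dif_neg h0, Finsupp.add_apply, divOf_apply] at h1
      rw [hB, Finsupp.sub_apply]
      show P.ord (aeval E.x (G p)) = _
      omega
  obtain ⟨C₁, hC₁⟩ := hW _ f B hexact
  obtain ⟨C₂, hC₂⟩ := hW _ E.x _ (exactPole_x E hpt)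
  set g : ℝ := |ht (fun p => eval (E.pt E.vinf) (G p)) - (e : ℝ) * ht (E.pt E.vinf)
      + pairPt E Z E.vinf| with hg
  refine ⟨max (C₁ + e * C₂) 0 + g, fun P hP => ?_⟩
  have hg0 : 0 ≤ g := abs_nonneg _
  by_cases hPinf : P = E.vinf
  · subst hPinf
    have := le_max_right (C₁ + e * C₂) 0
    show g ≤ _
    linarith
  have hm0 : (E.m • prim E.vinf : Divisor K F) P = 0 := by
    simp [prim, Ne.symm hPinf]
  have hB0 : B P = 0 := by
    rw [hB, Finsupp.sub_apply, hP]
    simp [prim, Ne.symm hPinf]
  have h1 := hC₁ P hB0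
  have h2 := hC₂ P hm0
  -- the point
  have hxreg : ∀ i, RegAt P (E.x i) := fun i => by
    rw [regAt_iff]
    rcases (mem_L_iff.mp (x_mem_L E i)) P with h | h
    · rw [h, P.ord_zero]
    · rw [hm0] at h
      simpa using h
  obtain ⟨c, hc, hprop⟩ := ptD_x_prop E hpt P
  have hxval : (fun i => valAt P (E.x i)) = c • E.pt P := by
    rw [← hprop]
    funext i
    rw [ptD_apply, hm0, zpow_zero, mul_one]
  have e2 : ht (fun i => valAt P (E.x i)) = ht (E.pt P) := by
    rw [hxval]
    exact H380.absLogHeight_smul _ (fun _ => isIntegral_all _) hc (isIntegral_all _)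
  -- the forms
  have e1 : ht (fun p => valAt P (f p)) = ht (fun p => eval (E.pt P) (G p)) := by
    have h3 : (fun p => valAt P (f p)) = (c ^ e) • fun p => eval (E.pt P) (G p) := by
      funext p
      rw [hf]
      simp only
      rw [(valAt_aeval P E.x hxreg (G p)).2, hxval]
      have := aeval_mul_of_isHomogeneous (S := K) (hG p) c (E.pt P)
      rw [MvPolynomial.aeval_eq_eval, MvPolynomial.aeval_eq_eval] at this
      simp only [Pi.smul_apply, smul_eq_mul]
      exact this
    rw [h3]
    exact H380.absLogHeight_smul _ (fun _ => isIntegral_all _) (pow_ne_zero _ hc)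
      (isIntegral_all _)
  -- the pairing
  have e3 : pairPt E B P = e * pairPt E (E.m • prim E.vinf) P - pairPt E Z P := by
    rw [hB, ← pairPtHom_apply, ← pairPtHom_apply, ← pairPtHom_apply, map_sub, mul_nsmul',
      map_nsmul]
    simp
  rw [e2] at h2
  rw [e1, e3] at h1
  have := le_max_left (C₁ + e * C₂) 0
  have he : (0 : ℝ) ≤ e := Nat.cast_nonneg e
  rw [abs_le] at h1 h2 ⊢
  constructor
  · nlinarith [h1.1, h1.2, h2.1, h2.2]
  · nlinarith [h1.1, h1.2, h2.1, h2.2]

/-- **WEIL** (leaf of the GAUSS sub-project of helper290), from the wall leaves A3 and G-PT. -/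
theorem weil [IsAlgClosed K] (E : EmbData K F) (hA3 : MultislotStatement K)
    (hPt : PtStatement E) : H290.WeilStatement E :=
  weil_of_whm E hPt.1 (whm E hA3 hPt)

end Fermat.Agent.S17.H320
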