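import Fermat.Agent.S17.H320.WHM
import Fermat.Agent.S17.H17.HGauss
import Fermat.Agent.S17.H290.TanForms
import Fermat.Agent.S17.H740.Multislot
import Fermat.Agent.S17.H440.PtCone

/-!
# S17 / tower H — (GAUSS), UNCONDITIONAL  (helper320)

* `whm_main E : WHMStatement E` (wall leaves A3 = `H740.multislot`, G-PT = `H440.ptStatement`);
* `tanStatement_of_local` : `TanStatement E W` for `W = div ω`, from `H290.tan_local`;
* `princ_main E : HContract.PRINCStatement E` (the machine for the one-element family `{f}`);
* `gaussCan_main E : HContract.GAUSSCanStatement E` — (GAUSS) at the divisor of EVERY nonzero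
  Kähler differential (the frozen output of the GAUSS sub-project, `S17/H17/HGauss.lean`);
* `gauss_main E : HContract.GAUSSStatement E` — the input of `Wall.contract_main`.

No hypothesis on `E` beyond `EmbData` (`K` algebraically closed, algebraic over `ℚ`).
-/

set_option autoImplicit false
set_option linter.unusedSectionVars false

noncomputable section

open AlgebraicCurve KaehlerDifferential

namespace Fermat.Agent.S17.H320

open Fermat.Agent.Lib.RR Fermat.Agent.S17.HWall Fermat.Agent.S17.HContract
open Fermat.Agent.S17.H230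

variable {K F : Type*} [Field K] [CharZero K] [Field F] [Algebra K F] [FF1 K F]

/-- **(TAN)** in the shape of `WHMDefs`, from the local form of helper290. -/
theorem tanStatement_of_local (E : EmbData K F) (δ : Derivation K F F) (ω : Ω[F⁄K])
    (hω : ∀ y : F, D K F y = δ y • ω) (hω0 : ω ≠ 0) (W : Divisor K F)
    (hW : ∀ v : Place K F, W v = v.ordDifferential ω) : TanStatement E W := by
  classical
  refine ⟨H290.wform E δ, fun P => ?_, fun P hPinf hP => ?_⟩
  · obtain ⟨θ, u, c, hθ, hc, hord, hreg, hw, hval⟩ := H290.tan_local E δ ω hω hω0 P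
    have hB : -((2 * E.m) • prim E.vinf + W : Divisor K F) P = P.ord θ := by
      rw [hord, Finsupp.add_apply, hW P, Finsupp.smul_apply, Finsupp.smul_apply, nsmul_eq_mul,
        nsmul_eq_mul]
      push_cast
      ring
    rw [hB]
    refine ⟨fun p => ?_, ?_⟩
    · by_cases h0 : H290.wform E δ p = 0
      · exact Or.inl h0
      right
      have hu0 : u p ≠ 0 := by
        intro h
        apply h0
        rw [hw p, h, mul_zero]
      rw [hw p, P.ord_mul hθ hu0]
      have := (regAt_iff P (u p)).mp (hreg p)
      omega
    · obtain ⟨p, hp⟩ := Function.ne_iff.mp (Fermat.Agent.S17.H440.wedge_pt_tn_ne_zero E P)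
      have hp' : wedge (E.pt P) (E.tn P) p ≠ 0 := by simpa using hp
      have hvalne : valAt P (u p) ≠ 0 := by
        rw [hval p]
        exact mul_ne_zero hc hp'
      have hu0 : u p ≠ 0 := by
        intro h
        apply hvalne
        rw [h, valAt_zero]
      have hord0 : P.ord (u p) = 0 := by
        have h1 := (regAt_iff P (u p)).mp (hreg p)
        have h2 := (valAt_eq_zero_iff (hreg p)).not.mp hvalne
        simp only [not_or, not_lt] at h2
        omega
      refine ⟨p, ?_, ?_⟩
      · rw [hw p]
        exact mul_ne_zero hθ hu0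
      · rw [hw p, P.ord_mul hθ hu0, hord0, add_zero]
  · obtain ⟨θ, u, c, hθ, hc, hord, hreg, hw, hval⟩ := H290.tan_local E δ ω hω hω0 P
    have hm0 : (E.m • prim E.vinf : Divisor K F) P = 0 := by
      simp [prim, Ne.symm hPinf]
    have hθ0 : P.ord θ = 0 := by
      rw [hord, ← hW P, hP, hm0]
      ring
    have hθreg : RegAt P θ := by
      rw [regAt_iff, hθ0]
    have hθval : valAt P θ ≠ 0 := valAt_ne_zero hθ hθ0
    refine ⟨(valAt P θ * c)⁻¹, inv_ne_zero (mul_ne_zero hθval hc), ?_⟩
    funext p
    rw [hw p, valAt_mul hθreg (hreg p), hval p]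
    field_simp

variable [Algebra.IsAlgebraic ℚ K]

/-- **(PRINC)**: the pairing with a principal divisor is bounded off its support. -/
theorem princ_of_whm (E : EmbData K F) (hW : WHMStatement E) : PRINCStatement E := by
  intro f Df hf hDf
  have hex : ExactPole (fun _ : Unit => f) (-Df) := by
    intro P
    refine ⟨fun _ => Or.inr ?_, ⟨(), hf, ?_⟩⟩
    · rw [Finsupp.neg_apply, neg_neg, hDf P]
    · rw [Finsupp.neg_apply, neg_neg, hDf P]
  obtain ⟨C, hC⟩ := hW Unit (fun _ => f) (-Df) hex
  refine ⟨C, fun P hP => ?_⟩
  have h0 : (-Df) P = 0 := by rw [Finsupp.neg_apply, hP, neg_zero]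
  have h1 := hC P h0
  have h2 : ht (fun _ : Unit => valAt P f) = 0 := by
    have hz : IsIntegral ℚ (valAt P f) := isIntegral_all _
    have := H380.tupleField_numberField (fun _ : Unit => valAt P f) (fun _ => hz)
    show H380.absLogHeight (fun _ : Unit => valAt P f) = 0
    rw [H380.absLogHeight_def _ (fun _ => hz), Height.logHeight_eq_zero_of_subsingleton, mul_zero]
  have h3 : pairPt E (-Df) P = - pairPt E Df P := by
    rw [← pairPtHom_apply, ← pairPtHom_apply, map_neg]
  rw [h2, h3, zero_sub, neg_neg] at h1
  exact h1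

variable [IsAlgClosed K]

/-- **(WHM)**, unconditional. -/
theorem whm_main (E : EmbData K F) : WHMStatement E :=
  whm E (Fermat.Agent.S17.H740.multislot K) (Fermat.Agent.S17.H440.ptStatement E)

/-- **(PRINC)**, unconditional. -/
theorem princ_main (E : EmbData K F) : PRINCStatement E :=
  princ_of_whm E (whm_main E)

/-- **(GAUSS)** at the divisor of every nonzero Kähler differential, unconditional. -/
theorem gaussCan_main (E : EmbData K F) : GAUSSCanStatement E := by
  obtain ⟨δ, ω₀, hω₀, hδ⟩ := H290.exists_der_diff K F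
  obtain ⟨W₀, hW₀, -⟩ := Fermat.Agent.Lib.RR.H80.exists_canonical_kaehler ω₀ hω₀
  have hT : TanStatement E W₀ := tanStatement_of_local E δ ω₀ hδ hω₀ W₀ hW₀
  have hG : GAUSSAtStatement E W₀ :=
    gaussFor_of_whm E (fun P => Fermat.Agent.S17.H440.pt_ne_zero E P) (whm_main E) W₀ hT
  exact gaussCan_of_one (princ_main E) ω₀ hω₀ W₀ hW₀ hG

/-- **(GAUSS)** of the contract, unconditional. -/
theorem gauss_main (E : EmbData K F) : GAUSSStatement E :=
  gaussStatement_of_can (gaussCan_main E)

end Fermat.Agent.S17.H320
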