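import Fermat.Agent.S17.H320.RedGood
import Fermat.Agent.S37.Red.H940.MainStatement
import Fermat.Agent.S18.H905.ConstInst

/-!
# S17 / G-DIV, piece RED (helper320): specialisation of places and of `Pic⁰` in equal
characteristic, for the CONSTANT curve `X₀(N)`

Setting: `L`, `k` algebraically closed fields of characteristic `0`, `A ⊆ L` a valuation subring,
`π : A → k` with `ker π = 𝔪_A` and a section `s : k → A` (so `k ⊆ A ⊆ L` and the residue field of
`A` is `k`).  `F_L = L(X₀(N))`, `F_k = k(X₀(N))`, `bc = bcHom : F_k → F_L` the constant base change.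

A place `P` of `F_L` **specialises** to a place `Q` of `F_k` (`Specialises`) if
`(bc h)(P) = a ∈ A` implies `h(Q) = π a`, for all `h ∈ F_k`.

Main result `exists_specialisation`: there is `r : Pl(F_L) → Pl(F_k)` such that
* `r` is a place reduction in the sense of the Prelude (`IsPlaceReductionAlong A π N r`) and
  principal divisors are generated by integral ones (`PrincipalGeneratedByIntegral A π N`), so
  that `ModularCurve.reductionPic0Along r _ _ : Pic⁰(F_L) →+ Pic⁰(F_k)` is defined, with
  `red [D] = [r_* D]` (`ModularCurve.reductionPic0Along_mk`);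
* `r P = Q` whenever `P` specialises to `Q`.

Proof: the abstract RED-MAIN theorem of the S37 row (`S37.Red.H940.exists_isRed`, helper940 /
helper160 / helper399 / helper217 / helper40) applied to the constant datum `eDatum`
(`RedGood.lean`), plus a separation argument on the two charts of `j`.
-/

set_option autoImplicit false
set_option synthInstance.maxHeartbeats 400000

noncomputable section

namespace Fermat.Agent.S17.H320

open ModularCurve AlgebraicCurve HahnSeries IsLocalRing IntermediateField
open Fermat.Agent.S37 Fermat.Agent.S37.Red Fermat.Agent.S37.H940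

universe u

/-! ## 1. The composite valuation ring of a place and a valuation ring of constants -/

section CompVal

variable {K F : Type*} [Field K] [Field F] [Algebra K F] (A : ValuationSubring K)

/-- `f` is regular at `P` with value in `A` -/
def HasValIn (P : Place K F) (f : F) : Prop :=
  ∃ a : A, InMax P (f - algebraMap K F (a : K))

variable {A}

theorem HasValIn.ord_nonneg {P : Place K F} {f : F} (h : HasValIn A P f) : 0 ≤ P.ord f := by
  obtain ⟨a, ha⟩ := h
  exact ord_nonneg_of_inMax_sub ha

theorem hasValIn_const (P : Place K F) (a : A) : HasValIn A P (algebraMap K F (a : K)) :=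
  ⟨a, by rw [sub_self]; exact inMax_zero P⟩

theorem HasValIn.add {P : Place K F} {f g : F} (hf : HasValIn A P f) (hg : HasValIn A P g) :
    HasValIn A P (f + g) := by
  obtain ⟨a, ha⟩ := hf
  obtain ⟨b, hb⟩ := hg
  refine ⟨a + b, ?_⟩
  have e : f + g - algebraMap K F ((a + b : A) : K) =
      (f - algebraMap K F (a : K)) + (g - algebraMap K F (b : K)) := by
    show f + g - algebraMap K F ((a : K) + (b : K)) = _
    rw [map_add]
    ring
  rw [e]
  exact ha.add hb

theorem HasValIn.neg {P : Place K F} {f : F} (hf : HasValIn A P f) : HasValIn A P (-f) := by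
  obtain ⟨a, ha⟩ := hf
  refine ⟨-a, ?_⟩
  have e : -f - algebraMap K F ((-a : A) : K) = -(f - algebraMap K F (a : K)) := by
    show -f - algebraMap K F (-(a : K)) = _
    rw [map_neg]
    ring
  rw [e]
  exact ha.neg

theorem HasValIn.mul {P : Place K F} {f g : F} (hf : HasValIn A P f) (hg : HasValIn A P g) :
    HasValIn A P (f * g) := by
  have hg0 := hg.ord_nonneg
  obtain ⟨a, ha⟩ := hf
  obtain ⟨b, hb⟩ := hg
  refine ⟨a * b, ?_⟩
  have e : f * g - algebraMap K F ((a * b : A) : K) =
      (f - algebraMap K F (a : K)) * g +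
        algebraMap K F (a : K) * (g - algebraMap K F (b : K)) := by
    show f * g - algebraMap K F ((a : K) * (b : K)) = _
    rw [map_mul]
    ring
  rw [e]
  exact (ha.mul_of_ord_nonneg hg0).add (hb.const_mul _)

variable (A)

/-- **the composite valuation ring** of a place `P` of `F` and the valuation ring `A` of the
constants: the functions regular at `P` with value in `A` -/
def compVal [IsAlgClosed K] {t : F} (ht : Transcendental K t) [FiniteDimensional K⟮t⟯ F]
    (P : Place K F) : ValuationSubring F where
  carrier := {f | HasValIn A P f}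
  mul_mem' := fun hf hg => hf.mul hg
  one_mem' := by
    have := hasValIn_const (F := F) P (1 : A)
    simpa using this
  add_mem' := fun hf hg => hf.add hg
  zero_mem' := by
    have := hasValIn_const (F := F) P (0 : A)
    simpa using this
  neg_mem' := fun hf => hf.neg
  mem_or_inv_mem' := by
    intro f
    rcases eq_or_ne f 0 with rfl | hf0
    · left
      have := hasValIn_const (F := F) P (0 : A)
      simpa using this
    rcases lt_trichotomy (P.ord f) 0 with hlt | heq | hgt
    · right
      refine ⟨0, ?_⟩
      have : 0 < P.ord f⁻¹ := by rw [P.ord_inv]; omega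
      simpa using inMax_of_ord_pos this
    · obtain ⟨c, hc⟩ := Line.exists_value ht P (f := f) (by omega)
      have hc0 : c ≠ 0 := by
        rintro rfl
        rw [map_zero, sub_zero] at hc
        have := hc.ord_pos hf0
        omega
      by_cases hcA : c ∈ A
      · left
        exact ⟨⟨c, hcA⟩, hc⟩
      · right
        have hinv : c⁻¹ ∈ A := (A.mem_or_inv_mem c).resolve_left hcA
        refine ⟨⟨c⁻¹, hinv⟩, ?_⟩
        have hc' : algebraMap K F c ≠ 0 := by
          rwa [Ne, map_eq_zero_iff _ (algebraMap K F).injective]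
        have e : f⁻¹ - algebraMap K F c⁻¹ =
            -(f - algebraMap K F c) * (f⁻¹ * algebraMap K F c⁻¹) := by
          rw [map_inv₀]
          field_simp
          ring
        show InMax P (f⁻¹ - algebraMap K F c⁻¹)
        rw [e]
        refine hc.neg.mul_of_ord_nonneg ?_
        have h1 : P.ord f⁻¹ = 0 := by rw [P.ord_inv, heq]; rfl
        have h2 : P.ord (algebraMap K F c⁻¹) = 0 := Fermat.Agent.S24.FF.ord_algebraMap P _
        have hne1 : f⁻¹ ≠ 0 := inv_ne_zero hf0
        have hne2 : algebraMap K F c⁻¹ ≠ 0 := by
          rw [map_inv₀]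
          exact inv_ne_zero hc'
        rw [P.ord_mul hne1 hne2, h1, h2]
        norm_num
    · left
      refine ⟨0, ?_⟩
      simpa using inMax_of_ord_pos hgt

theorem mem_compVal [IsAlgClosed K] {t : F} (ht : Transcendental K t) [FiniteDimensional K⟮t⟯ F]
    (P : Place K F) (f : F) : f ∈ compVal A ht P ↔ HasValIn A P f := Iff.rfl

/-- a function integral over a subring of functions with values in `A` has a value in `A` -/
theorem hasValIn_of_isIntegral [IsAlgClosed K] {t : F} (ht : Transcendental K t)
    [FiniteDimensional K⟮t⟯ F] (P : Place K F) (S : Subring F)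
    (hS : ∀ f ∈ S, HasValIn A P f) {b : F} (hb : IsIntegral S b) : HasValIn A P b := by
  have hle : S ≤ (compVal A ht P).toSubring := fun f hf => hS f hf
  have h1 : IsIntegral (compVal A ht P) ((RingHom.id F) b) :=
    IsIntegral.map_of_comp_eq (Subring.inclusion hle) (RingHom.id F) (by ext z; rfl) hb
  obtain ⟨y, hy⟩ := IsIntegrallyClosed.isIntegral_iff.mp h1
  have : b ∈ compVal A ht P := by
    rw [RingHom.id_apply] at hy
    rw [← hy]
    exact y.2
  exact this

end CompVal

/-! ## 2. Specialisation -/

section Spec

variable {L k : Type u} [Field L] [Algebra ℚ L] [Field k] [Algebra ℚ k]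
variable (A : ValuationSubring L) (π : A →+* k) (N : ℕ)
variable (s : k →+* A)

/-- **`P` specialises to `Q`**: `(bc h)(P) = a ∈ A` implies `h(Q) = π a`. -/
def Specialises (P : Place L (FL L N)) (Q : Place k (FK k N)) : Prop :=
  ∀ (h : FK k N) (a : A), InMax P (bcHom A N s h - algebraMap L (FL L N) (a : L)) →
    InMax Q (h - algebraMap k (FK k N) (π a))

variable {A π N s}

/-- every element of the chart of `t` has a value in `A` where `t` has one -/
theorem hasValIn_of_mem_chart [IsAlgClosed L] (G : Datum A π (FL L N) (FK k N))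
    {x : FL L N} (hx : Transcendental L x) [FiniteDimensional L⟮x⟯ (FL L N)]
    (P : Place L (FL L N)) {T : FL L N} (hT : HasValIn A P T) {b : FL L N}
    (hb : b ∈ G.chart T) : HasValIn A P b := by
  refine hasValIn_of_isIntegral A hx P (G.polyRing T) ?_ hb
  intro f hf
  have hle : G.polyRing T ≤ (compVal A hx P).toSubring := by
    refine sup_le ?_ ?_
    · rintro _ ⟨a, ha, rfl⟩
      exact hasValIn_const P ⟨a, ha⟩
    · rw [Subring.closure_le]
      intro z hz
      rw [Set.mem_singleton_iff] at hz
      subst hz
      exact hT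
  exact hle hf

/-- the separation argument on one chart -/
theorem red_eq_of_specialises_chart [IsAlgClosed L] [IsAlgClosed k]
    (G : Datum A π (FL L N) (FK k N))
    (hlink : ∀ c : FK k N, ∃ h : bcHom A N s c ∈ G.O, G.ρ ⟨bcHom A N s c, h⟩ = c)
    {x : FL L N} (hx : Transcendental L x) [FiniteDimensional L⟮x⟯ (FL L N)]
    (r : Place L (FL L N) → Place k (FK k N))
    (t : FK k N) (ht : Transcendental k t) [FiniteDimensional k⟮t⟯ (FK k N)]
    (hEC : EvalCompatAt G r (bcHom A N s t))
    (P : Place L (FL L N)) (Q : Place k (FK k N)) (hsp : Specialises A π N s P Q)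
    (hT : HasValIn A P (bcHom A N s t)) : r P = Q := by
  obtain ⟨a₀, ha₀⟩ := hT
  have hQ : InMax Q (t - algebraMap k (FK k N) (π a₀)) := hsp t a₀ ha₀
  have hTmem : bcHom A N s t ∈ G.chart (bcHom A N s t) := by
    show IsIntegral (G.polyRing (bcHom A N s t)) (bcHom A N s t)
    have hm : bcHom A N s t ∈ G.polyRing (bcHom A N s t) :=
      (le_sup_right : Subring.closure {bcHom A N s t} ≤ _)
        (Subring.subset_closure (Set.mem_singleton _))
    exact isIntegral_algebraMap (R := G.polyRing (bcHom A N s t)) (x := ⟨_, hm⟩)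
  obtain ⟨hTO, hρT⟩ := hlink t
  have hv₀ : ValAt P (bcHom A N s t) (a₀ : L) := (Red.H940.valAt_iff_inMax _ _ _).mpr ha₀
  have hrP : InMax (r P) (t - algebraMap k (FK k N) (π a₀)) := by
    have := hEC P a₀ hv₀ _ hTmem hTO a₀ hv₀
    rw [hρT] at this
    exact (Red.H940.valAt_iff_inMax _ _ _).mp this
  obtain ⟨σ, hσ, hsep⟩ := Line.exists_separating ht (π a₀)
  have hb : bcHom A N s σ ∈ G.chart (bcHom A N s t) := bcHom_mem_chart A π N s G t σ hσ
  obtain ⟨a', ha'⟩ := hasValIn_of_mem_chart G hx P ⟨a₀, ha₀⟩ hb
  obtain ⟨hbO, hρb⟩ := hlink σ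
  have h1 : InMax (r P) (σ - algebraMap k (FK k N) (π a')) := by
    have := hEC P a₀ hv₀ _ hb hbO a' ((Red.H940.valAt_iff_inMax _ _ _).mpr ha')
    rw [hρb] at this
    exact (Red.H940.valAt_iff_inMax _ _ _).mp this
  have h2 : InMax Q (σ - algebraMap k (FK k N) (π a')) := hsp σ a' ha'
  exact hsep (r P) Q hrP hQ (π a') h1 h2

end Spec

/-! ## 3. The main theorem -/

section Main

variable {L k : Type u} [Field L] [Algebra ℚ L] [Field k] [Algebra ℚ k]
variable [IsAlgClosed L] [IsAlgClosed k]
variable (A : ValuationSubring L) (π : A →+* k) (N : ℕ) [NeZero N]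
variable (s : k →+* A) (hπs : ∀ c, π (s c) = c) (hker : ∀ a : A, π a = 0 ↔ ¬ IsUnit a)

omit [IsAlgClosed L] [NeZero N] in
theorem transcendental_of_coe_eq_jq (x : FL L N) (hx : (x : LaurentSeries L) = jqModC L) :
    Transcendental L x := by
  intro h
  apply Fermat.Agent.S18.H905.transcendental_jqModC L
  rw [← hx]
  exact (isAlgebraic_algHom_iff (laurentBaseChange L (modularFunctionFieldFull N)).val
    Subtype.val_injective).mpr h

/-- `F_L` has principal divisors -/
theorem hasPrincipalDivisors_FL :
    HasPrincipalDivisors L (laurentBaseChange L (modularFunctionFieldFull N)) := by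
  let x : FL L N := ⟨jqModC L, by
    have := coeffMap_jqModC_mem_FL (L := L) N (⊤ : ValuationSubring L)
    rwa [coeffMap_jqModC] at this⟩
  have hx : Transcendental L x := transcendental_of_coe_eq_jq N x rfl
  have : FiniteDimensional L⟮x⟯ (FL L N) := by
    apply Module.finite_of_finrank_pos
    rw [finrank_adjoin_FL N x rfl]
    exact Fermat.Agent.S28.H988.dedekindPsi_pos N (NeZero.ne N)
  exact Fermat.Agent.Lib.RR.H443.hasPrincipalDivisors_of_isAlgClosed hx

include hπs hker in
/-- **Specialisation in equal characteristic.**  There is a place reduction map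
`r : Pl(L(X₀(N))) → Pl(k(X₀(N)))` along `(A, π)` in the sense of the Prelude, principal divisors
are generated by integral ones, and `r P = Q` whenever `P` specialises to `Q`. -/
theorem exists_specialisation :
    ∃ r : Place L (laurentBaseChange L (modularFunctionFieldFull N)) →
        Place k (modularFunctionFieldFullC k N),
      IsPlaceReductionAlong A π N r ∧ PrincipalGeneratedByIntegral A π N ∧
        ∀ P Q, Specialises A π N s P Q → r P = Q := by
  have hCL : CharZero L := algebraRat.charZero L
  set G := eDatum A π N s hπs hker with hG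
  have hgood : G.Good := eDatum_good A π N s hπs hker
  obtain ⟨r, hr, hEC⟩ := Red.H940.exists_isRed G hgood
  have hVG : GVG A π N := eVG A π N s
  have hlink := bcHom_link A π N s hπs hker
  have hbx : bcHom A N s G.xk = G.x := bcHom_xk A π N s hπs hker
  have hxtr : Transcendental L G.x :=
    transcendental_of_coe_eq_jq N _ (eDatum_x_coe A π N s hπs hker)
  have hfin : FiniteDimensional L⟮G.x⟯ (FL L N) := hgood.finite
  have hfink : FiniteDimensional k⟮G.xk⟯ (FK k N) := hgood.finite_k
  refine ⟨r, ⟨hr.1, ?_⟩, ?_, ?_⟩
  · intro y hy hyk hne D hD Q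
    obtain ⟨h, hρ⟩ := gLink (surj_of_section A π s hπs) hker hVG y hy hyk
    have hρ' : G.ρ ⟨⟨coeffMap A.subtype y, hy⟩, h⟩ = ⟨coeffMap π y, hyk⟩ := hρ
    have hne' : G.ρ ⟨⟨coeffMap A.subtype y, hy⟩, h⟩ ≠ 0 := by
      rw [hρ']
      intro h0
      exact hne (congrArg Subtype.val h0)
    have key := hr.2 _ h hne' D hD Q
    rw [hρ'] at key
    exact key
  · have := hasPrincipalDivisors_FL (L := L) N
    exact H940.principal_le_closure_intPrincipal A π _ _ hVG
  · intro P Q hsp
    by_cases hT : HasValIn A P G.x
    · have hEC1 : EvalCompatAt G r (bcHom A N s G.xk) := by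
        rw [hbx]
        exact hEC.1
      exact red_eq_of_specialises_chart G hlink hxtr r G.xk G.xk_transc hEC1 P Q hsp
        (by rw [hbx]; exact hT)
    · have hinv : HasValIn A P G.x⁻¹ :=
        ((compVal A hxtr P).mem_or_inv_mem G.x).resolve_left hT
      have hb : bcHom A N s G.xk⁻¹ = G.x⁻¹ := by rw [map_inv₀, hbx]
      have hEC2 : EvalCompatAt G r (bcHom A N s G.xk⁻¹) := by
        rw [hb]
        exact hEC.2
      have htr : Transcendental k G.xk⁻¹ := by
        intro h
        apply G.xk_transc
        have := h.inv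
        rwa [inv_inv] at this
      have : FiniteDimensional k⟮G.xk⁻¹⟯ (FK k N) := by
        rw [Red.H217.adjoin_inv_eq']
        exact hfink
      exact red_eq_of_specialises_chart G hlink hxtr r G.xk⁻¹ htr hEC2 P Q hsp
        (by rw [hb]; exact hinv)

end Main

end Fermat.Agent.S17.H320
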