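import Fermat.Agent.S37.Red.Spec
import Fermat.Agent.S37.H940.QSeries
import Fermat.Prelude.Def_ModularCurve_ReductionModL

/-!
# S17 / G-DIV, piece RED (helper320), part 1: the reduction datum over an arbitrary base

Generalisation of `Fermat/Agent/S37/Red/ModG.lean` (helper40) from `(ℚ̄, A ⊆ ℚ̄, residue A)` to an
arbitrary field `L ⊇ ℚ`, a valuation subring `A ⊆ L` and a residue map `π : A → k`.

* `F_L = laurentBaseChange L (modularFunctionFieldFull N) ⊆ L((q))`,
  `F_k = modularFunctionFieldFullC k N ⊆ k((q))`;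
* `gO`  = the ring of fractions `a / b` of integral `q`-series (helper940's `qData`), a VALUATION
  ring by the value-group hypothesis `GVG`;
* `gρ`  = `ρ (a / b) = ā / b̄`, surjective;
* `gDatum` = the reduction datum (`Red/Spec.lean`) with an integral coordinate `x`.
-/

set_option autoImplicit false
set_option synthInstance.maxHeartbeats 400000

noncomputable section

namespace Fermat.Agent.S17.H320

open ModularCurve AlgebraicCurve HahnSeries IsLocalRing
open Fermat.Agent.S37 Fermat.Agent.S37.Red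

universe u

/-- the function field `F_L = L(j(q^d) : d ∣ N)` of `X₀(N)` over `L` -/
abbrev FL (L : Type u) [Field L] [Algebra ℚ L] (N : ℕ) : Type u :=
  laurentBaseChange L (modularFunctionFieldFull N)

/-- the function field `F_k = k(j(q^d) : d ∣ N)` -/
abbrev FK (k : Type u) [Field k] (N : ℕ) : Type u := modularFunctionFieldFullC k N

section Datum

variable {L k : Type u} [Field L] [Algebra ℚ L] [Field k]
variable (A : ValuationSubring L) (π : A →+* k) (N : ℕ)
variable (hsurj : Function.Surjective π) (hker : ∀ a : A, π a = 0 ↔ ¬ IsUnit a)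

/-- helper940's fraction data for the modular function fields over `(L, A, π)` -/
def gFrac : H940.FracData L (FL L N) k (FK k N) :=
  H940.qData A π (laurentBaseChange L (modularFunctionFieldFull N))
    (modularFunctionFieldFullC k N) hsurj hker

/-- **Value-group hypothesis** (helper940's `ValueGroupHyp`). -/
abbrev GVG : Prop :=
  H940.ValueGroupHyp A π (laurentBaseChange L (modularFunctionFieldFull N))
    (modularFunctionFieldFullC k N)

variable {A π N}

/-- the Gauss valuation ring of `F_L` -/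
def gO (hVG : GVG A π N) : ValuationSubring (FL L N) :=
  { (gFrac A π N hsurj hker).V with
    mem_or_inv_mem' := by
      intro f
      rcases eq_or_ne f 0 with rfl | hf
      · exact Or.inl (Subring.zero_mem _)
      obtain ⟨c, hc, y₁, y₂, h₁, h₂, hfy⟩ := hVG f hf
      let z₁ : (gFrac A π N hsurj hker).O := y₁
      let z₂ : (gFrac A π N hsurj hker).O := y₂
      have hz₁ : (gFrac A π N hsurj hker).ρ₀ z₁ ≠ 0 := h₁
      have hz₂ : (gFrac A π N hsurj hker).ρ₀ z₂ ≠ 0 := h₂
      have hfz : f * (z₂ : FL L N) = algebraMap L (FL L N) c * (z₁ : FL L N) := hfy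
      by_cases hcA : c ∈ A
      · left
        refine ⟨⟨algebraMap L (FL L N) c, (gFrac A π N hsurj hker).A_mem ⟨c, hcA⟩⟩ * z₁, z₂,
          hz₂, ?_⟩
        rw [hfz]
        rfl
      · right
        have hinv : c⁻¹ ∈ A := (A.mem_or_inv_mem c).resolve_left hcA
        refine ⟨⟨algebraMap L (FL L N) c⁻¹, (gFrac A π N hsurj hker).A_mem ⟨c⁻¹, hinv⟩⟩ * z₂,
          z₁, hz₁, ?_⟩
        have hy₁ : (z₁ : FL L N) ≠ 0 := (gFrac A π N hsurj hker).coe_ne_zero hz₁
        have hc' : algebraMap L (FL L N) c ≠ 0 := by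
          rwa [Ne, map_eq_zero_iff _ (algebraMap L (FL L N)).injective]
        show f⁻¹ * (z₁ : FL L N) = algebraMap L (FL L N) c⁻¹ * (z₂ : FL L N)
        rw [map_inv₀, inv_mul_eq_iff_eq_mul₀ hf, ← mul_assoc, mul_comm f, mul_assoc, hfz,
          ← mul_assoc, inv_mul_cancel₀ hc', one_mul] }

theorem mem_gO (hVG : GVG A π N) {f : FL L N} :
    f ∈ gO hsurj hker hVG ↔ f ∈ (gFrac A π N hsurj hker).V := Iff.rfl

/-- the reduction map on the Gauss valuation ring -/
def gρ (hVG : GVG A π N) : gO hsurj hker hVG →+* FK k N := (gFrac A π N hsurj hker).ρ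

/-- an integral series of `F_L` with reduction in `F_k`, as an element of the Gauss valuation
ring -/
def gOfSeries (hVG : GVG A π N) (y : LaurentSeries A)
    (hy : coeffMap A.subtype y ∈ laurentBaseChange L (modularFunctionFieldFull N))
    (hyk : coeffMap π y ∈ modularFunctionFieldFullC k N) : gO hsurj hker hVG :=
  ⟨⟨coeffMap A.subtype y, hy⟩,
    (gFrac A π N hsurj hker).isFrac_of_mem ⟨⟨coeffMap A.subtype y, hy⟩, y, rfl, hyk⟩⟩

@[simp] theorem coe_gOfSeries (hVG : GVG A π N) (y : LaurentSeries A)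
    (hy : coeffMap A.subtype y ∈ laurentBaseChange L (modularFunctionFieldFull N))
    (hyk : coeffMap π y ∈ modularFunctionFieldFullC k N) :
    ((gOfSeries hsurj hker hVG y hy hyk : gO hsurj hker hVG) : FL L N) =
      ⟨coeffMap A.subtype y, hy⟩ := rfl

theorem gρ_gOfSeries (hVG : GVG A π N) (y : LaurentSeries A)
    (hy : coeffMap A.subtype y ∈ laurentBaseChange L (modularFunctionFieldFull N))
    (hyk : coeffMap π y ∈ modularFunctionFieldFullC k N) :
    gρ hsurj hker hVG (gOfSeries hsurj hker hVG y hy hyk) = ⟨coeffMap π y, hyk⟩ := by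
  have h := (gFrac A π N hsurj hker).ρ_ofO ⟨⟨coeffMap A.subtype y, hy⟩, y, rfl, hyk⟩
  refine Eq.trans h ?_
  apply Subtype.ext
  exact H940.coe_redQ A π _ _ ⟨⟨coeffMap A.subtype y, hy⟩, y, rfl, hyk⟩ (y := y) rfl

/-- **`link`**: a Prelude-integral series lies in `O` and `ρ` is its coefficientwise
reduction. -/
theorem gLink (hVG : GVG A π N) (y : LaurentSeries A)
    (hy : coeffMap A.subtype y ∈ laurentBaseChange L (modularFunctionFieldFull N))
    (hyk : coeffMap π y ∈ modularFunctionFieldFullC k N) :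
    ∃ h : (⟨coeffMap A.subtype y, hy⟩ : FL L N) ∈ gO hsurj hker hVG,
      gρ hsurj hker hVG ⟨⟨coeffMap A.subtype y, hy⟩, h⟩ = ⟨coeffMap π y, hyk⟩ :=
  ⟨(gOfSeries hsurj hker hVG y hy hyk).2, gρ_gOfSeries hsurj hker hVG y hy hyk⟩

/-- units of `O`: nonzero reduction implies the inverse is in `O` -/
theorem inv_mem_gO (hVG : GVG A π N) (u : gO hsurj hker hVG) (hu : gρ hsurj hker hVG u ≠ 0) :
    ((u : FL L N))⁻¹ ∈ gO hsurj hker hVG :=
  (gFrac A π N hsurj hker).ctx.inv_mem u hu

/-- the image of `ρ`, as a set of series -/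
def gρImage (hVG : GVG A π N) : Set (LaurentSeries k) :=
  {g | ∃ u : gO hsurj hker hVG, ((gρ hsurj hker hVG u : FK k N) : LaurentSeries k) = g}

/-- the image of `ρ` is an intermediate field -/
def gρField (hVG : GVG A π N) : IntermediateField k (LaurentSeries k) where
  carrier := gρImage hsurj hker hVG
  mul_mem' := by
    rintro _ _ ⟨u, rfl⟩ ⟨v, rfl⟩
    exact ⟨u * v, by rw [map_mul]; rfl⟩
  one_mem' := ⟨1, by rw [map_one]; rfl⟩
  add_mem' := by
    rintro _ _ ⟨u, rfl⟩ ⟨v, rfl⟩
    exact ⟨u + v, by rw [map_add]; rfl⟩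
  zero_mem' := ⟨0, by rw [map_zero]; rfl⟩
  algebraMap_mem' := by
    intro c
    obtain ⟨a, rfl⟩ := hsurj c
    refine ⟨⟨algebraMap L (FL L N) (a : L), (gFrac A π N hsurj hker).ctx.A_mem a⟩, ?_⟩
    have h := (gFrac A π N hsurj hker).ctx.ρ_A a
    show ((gρ hsurj hker hVG _ : FK k N) : LaurentSeries k) = _
    have h' : gρ hsurj hker hVG
        ⟨algebraMap L (FL L N) (a : L), (gFrac A π N hsurj hker).ctx.A_mem a⟩ =
        algebraMap k (FK k N) (π a) := h
    rw [h']
    rfl
  inv_mem' := by
    rintro _ ⟨u, rfl⟩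
    by_cases hu : gρ hsurj hker hVG u = 0
    · refine ⟨0, ?_⟩
      rw [hu, map_zero]
      simp
    · refine ⟨⟨((u : FL L N))⁻¹, inv_mem_gO hsurj hker hVG u hu⟩, ?_⟩
      have hmul : (⟨((u : FL L N))⁻¹, inv_mem_gO hsurj hker hVG u hu⟩ : gO hsurj hker hVG) * u
          = 1 := by
        apply Subtype.ext
        have hu0 : (u : FL L N) ≠ 0 := by
          intro h0
          apply hu
          have : u = 0 := Subtype.ext h0
          rw [this, map_zero]
        show ((u : FL L N))⁻¹ * (u : FL L N) = 1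
        exact inv_mul_cancel₀ hu0
      have h1 := congrArg (gρ hsurj hker hVG) hmul
      rw [map_mul, map_one] at h1
      have h2 : gρ hsurj hker hVG ⟨((u : FL L N))⁻¹, inv_mem_gO hsurj hker hVG u hu⟩ =
          (gρ hsurj hker hVG u)⁻¹ :=
        eq_inv_of_mul_eq_one_left h1
      rw [h2]
      rfl

/-- `j(q^d) ∈ F_L` for `d ∣ N` -/
theorem jqNModC_mem_FL {d : ℕ} [NeZero d] (hd : d ∣ N) :
    jqNModC L d ∈ laurentBaseChange L (modularFunctionFieldFull N) := by
  have h1 : jqNModC ℚ d ∈ modularFunctionFieldFull N := by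
    rw [← modularFunctionFieldFullC_rat]
    exact jqModCd_mem_full ℚ N hd
  have h2 := coeffEmb_mem_laurentBaseChange L h1
  have h3 : coeffEmb L (jqNModC ℚ d) = jqNModC L d :=
    coeffMap_jqNModC (algebraMap ℚ L) d
  rwa [h3] at h2

/-- the generators of `F_k` are reductions -/
theorem generators_mem_gρField (hVG : GVG A π N) :
    divisorExpansionsC k N ⊆ (gρField hsurj hker hVG : Set (LaurentSeries k)) := by
  rintro g ⟨d, hne, hd, rfl⟩
  haveI := hne
  have hy : coeffMap A.subtype (jqNModC A d) ∈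
      laurentBaseChange L (modularFunctionFieldFull N) := by
    rw [coeffMap_jqNModC]
    exact jqNModC_mem_FL hd
  have hyk : coeffMap π (jqNModC A d) ∈ modularFunctionFieldFullC k N := by
    rw [coeffMap_jqNModC]
    exact jqModCd_mem_full k N hd
  refine ⟨gOfSeries hsurj hker hVG (jqNModC A d) hy hyk, ?_⟩
  rw [gρ_gOfSeries]
  show coeffMap π (jqNModC A d) = _
  rw [coeffMap_jqNModC]
  rfl

/-- **`ρ` is surjective** -/
theorem gρ_surjective (hVG : GVG A π N) : Function.Surjective (gρ hsurj hker hVG) := by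
  intro g
  have hle : modularFunctionFieldFullC k N ≤ gρField hsurj hker hVG :=
    IntermediateField.adjoin_le_iff.mpr (generators_mem_gρField hsurj hker hVG)
  obtain ⟨u, hu⟩ := hle g.2
  exact ⟨u, Subtype.ext hu⟩

/-- **The reduction datum** with coordinate `x` (an integral series of `F_L` whose reduction lies
in `F_k` and is transcendental over `k`). -/
def gDatum (hVG : GVG A π N) (x : LaurentSeries A)
    (hx : coeffMap A.subtype x ∈ laurentBaseChange L (modularFunctionFieldFull N))
    (hxk : coeffMap π x ∈ modularFunctionFieldFullC k N)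
    (htr : Transcendental k (⟨coeffMap π x, hxk⟩ : FK k N)) :
    Datum A π (FL L N) (FK k N) where
  π_surj := hsurj
  O := gO hsurj hker hVG
  ρ := gρ hsurj hker hVG
  ρ_surj := gρ_surjective hsurj hker hVG
  const_mem := fun a => (gFrac A π N hsurj hker).ctx.A_mem a
  ρ_const := fun a => (gFrac A π N hsurj hker).ctx.ρ_A a
  x := ⟨coeffMap A.subtype x, hx⟩
  x_mem := (gOfSeries hsurj hker hVG x hx hxk).2
  xk_transc := by
    have h := gρ_gOfSeries hsurj hker hVG x hx hxk
    have h' : gρ hsurj hker hVG ⟨⟨coeffMap A.subtype x, hx⟩,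
        (gOfSeries hsurj hker hVG x hx hxk).2⟩ = ⟨coeffMap π x, hxk⟩ := h
    rw [h']
    exact htr

/-- `j ∈ F_L`, as an integral series -/
theorem coeffMap_jqModC_mem_FL (N : ℕ) (A : ValuationSubring L) :
    coeffMap A.subtype (jqModC A) ∈ laurentBaseChange L (modularFunctionFieldFull N) := by
  have h := jqNModC_mem_FL (L := L) (N := N) (d := 1) (one_dvd N)
  rw [jqNModC_one] at h
  rw [coeffMap_jqModC]
  exact h

/-- `j̄ ∈ F_k` -/
theorem coeffMap_jqModC_mem_FK (N : ℕ) (π : A →+* k) :
    coeffMap π (jqModC A) ∈ modularFunctionFieldFullC k N := by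
  rw [coeffMap_jqModC]
  exact jqModC_mem_full k N

/-- the reduced coordinate `j̄ ∈ F_k` -/
def gjk (N : ℕ) (π : A →+* k) : FK k N :=
  ⟨coeffMap π (jqModC A), coeffMap_jqModC_mem_FK N π⟩

/-- **The reduction datum with coordinate `x = j`.** -/
def gDatumJ (hVG : GVG A π N) (htr : Transcendental k (gjk N π)) :
    Datum A π (FL L N) (FK k N) :=
  gDatum hsurj hker hVG (jqModC A) (coeffMap_jqModC_mem_FL N A) (coeffMap_jqModC_mem_FK N π) htr

end Datum

end Fermat.Agent.S17.H320
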