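import Fermat.Agent.S17.H320.RedVG
import Fermat.Agent.S37.Red.H217.Sat
import Fermat.Agent.S37.H628.E2Degree
import Fermat.Agent.S18.H602.Descent
import Fermat.Agent.S18.H739.ModFinite

/-!
# S17 / G-DIV, piece RED (helper320), part 3: the equal-characteristic constant datum is good

Setting: `L ⊇ ℚ` a field, `A ⊆ L` a valuation subring, `π : A → k` with a SECTION `s : k → A`
(`π ∘ s = id`; so `k ⊆ A` and the residue field is `k`), `ker π = 𝔪_A`.

* `bcHom`  : the constant base change `F_k → F_L` (coefficientwise `ι = A.subtype ∘ s`);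
* `eDatum` : the reduction datum with coordinate `j`;
* `eDatum_good` : it has good charts (degrees `ψ(N)` on both sides from the S28 degree theory,
  lifting of integral functions by `bcHom`).
-/

set_option autoImplicit false
set_option synthInstance.maxHeartbeats 400000

noncomputable section

namespace Fermat.Agent.S17.H320

open ModularCurve AlgebraicCurve HahnSeries IsLocalRing IntermediateField
open Fermat.Agent.S37 Fermat.Agent.S37.Red

universe u

section Equal

variable {L k : Type u} [Field L] [Algebra ℚ L] [Field k] [Algebra ℚ k]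
variable (A : ValuationSubring L) (π : A →+* k) (N : ℕ)
variable (s : k →+* A) (hπs : ∀ c, π (s c) = c) (hker : ∀ a : A, π a = 0 ↔ ¬ IsUnit a)

/-- the embedding `k → L` of the section -/
def secL : k →+* L := A.subtype.comp s

/-- `ℚ ⊆ A` -/
def secQ : ℚ →+* A := s.comp (algebraMap ℚ k)

include hπs in
theorem surj_of_section : Function.Surjective π := fun c => ⟨s c, hπs c⟩

/-- the constant base change `F_k → F_L` -/
def bcHom : FK k N →+* FL L N where
  toFun c := ⟨coeffMap (secL A s) (c : LaurentSeries k), by
    have h : (c : LaurentSeries k) ∈ laurentBaseChange k (modularFunctionFieldFull N) := by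
      rw [Fermat.Agent.S28.H988.laurentBaseChange_full_eq_fullC]
      exact c.2
    exact Fermat.Agent.S18.H602.coeffMap_mem_laurentBaseChange _ (secL A s) h⟩
  map_one' := Subtype.ext (map_one (coeffMap (secL A s)))
  map_mul' a b := Subtype.ext (map_mul (coeffMap (secL A s)) _ _)
  map_zero' := Subtype.ext (map_zero (coeffMap (secL A s)))
  map_add' a b := Subtype.ext (map_add (coeffMap (secL A s)) _ _)

@[simp] theorem coe_bcHom (c : FK k N) :
    ((bcHom A N s c : FL L N) : LaurentSeries L) = coeffMap (secL A s) (c : LaurentSeries k) :=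
  rfl

theorem bcHom_algebraMap (c : k) :
    bcHom A N s (algebraMap k (FK k N) c) = algebraMap L (FL L N) ((s c : A) : L) := by
  apply Subtype.ext
  show coeffMap (secL A s) (algebraMap k (LaurentSeries k) c) = algebraMap L (LaurentSeries L) _
  rw [algebraMap_laurentSeries_eq_single, algebraMap_laurentSeries_eq_single, coeffMap_single]
  rfl

include s in
/-- the value-group hypothesis -/
theorem eVG : GVG A π N := gVG A π N (secQ A s)

theorem transcendental_gjk : Transcendental k (gjk (A := A) N π) := by
  have h := Fermat.Agent.S18.H739.transcendental_jC k N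
  have e : gjk (A := A) N π = ⟨jqModC k, jqModC_mem_full k N⟩ :=
    Subtype.ext (coeffMap_jqModC π)
  rw [e]
  exact h

/-- **the equal-characteristic constant reduction datum**, coordinate `j` -/
def eDatum : Datum A π (FL L N) (FK k N) :=
  gDatumJ (surj_of_section A π s hπs) hker (eVG A π N s) (transcendental_gjk A π N)

theorem eDatum_x_coe :
    (((eDatum A π N s hπs hker).x : FL L N) : LaurentSeries L) = jqModC L :=
  coeffMap_jqModC A.subtype

theorem eDatum_xk : (eDatum A π N s hπs hker).xk = gjk (A := A) N π :=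
  gρ_gOfSeries (surj_of_section A π s hπs) hker (eVG A π N s) (jqModC A)
    (coeffMap_jqModC_mem_FL N A) (coeffMap_jqModC_mem_FK N π)

theorem eDatum_xk_coe :
    (((eDatum A π N s hπs hker).xk : FK k N) : LaurentSeries k) = jqModC k := by
  rw [eDatum_xk]
  exact coeffMap_jqModC π

/-- constants and base changes lie in `O`, with the expected reduction -/
theorem bcHom_link (c : FK k N) :
    ∃ h : bcHom A N s c ∈ (eDatum A π N s hπs hker).O,
      (eDatum A π N s hπs hker).ρ ⟨bcHom A N s c, h⟩ = c := by
  have hy : coeffMap A.subtype (coeffMap s (c : LaurentSeries k)) ∈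
      laurentBaseChange L (modularFunctionFieldFull N) := by
    rw [coeffMap_coeffMap]
    exact (bcHom A N s c).2
  have hid : coeffMap π (coeffMap s (c : LaurentSeries k)) = c := by
    rw [coeffMap_coeffMap]
    have : π.comp s = RingHom.id k := RingHom.ext hπs
    rw [this, coeffMap_id]
  have hyk : coeffMap π (coeffMap s (c : LaurentSeries k)) ∈ modularFunctionFieldFullC k N := by
    rw [hid]
    exact c.2
  obtain ⟨h, hρ⟩ := gLink (surj_of_section A π s hπs) hker (eVG A π N s) _ hy hyk
  have e1 : (⟨coeffMap A.subtype (coeffMap s (c : LaurentSeries k)), hy⟩ : FL L N) =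
      bcHom A N s c := Subtype.ext (coeffMap_coeffMap _ _ _)
  have e2 : (⟨coeffMap π (coeffMap s (c : LaurentSeries k)), hyk⟩ : FK k N) = c :=
    Subtype.ext hid
  have hmem : bcHom A N s c ∈ gO (surj_of_section A π s hπs) hker (eVG A π N s) := by
    rw [← e1]
    exact h
  refine ⟨hmem, ?_⟩
  have e3 : (⟨bcHom A N s c, hmem⟩ : gO (surj_of_section A π s hπs) hker (eVG A π N s)) =
      ⟨⟨coeffMap A.subtype (coeffMap s (c : LaurentSeries k)), hy⟩, h⟩ :=
    Subtype.ext e1.symm
  show gρ (surj_of_section A π s hπs) hker (eVG A π N s) ⟨bcHom A N s c, hmem⟩ = c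
  rw [e3]
  exact hρ.trans e2

theorem bcHom_xk : bcHom A N s (eDatum A π N s hπs hker).xk = (eDatum A π N s hπs hker).x := by
  apply Subtype.ext
  rw [coe_bcHom, eDatum_xk_coe, eDatum_x_coe, coeffMap_jqModC]

/-- base change maps `k[t]` into `A[bc t]` -/
theorem bcHom_mem_polyRing (G : Datum A π (FL L N) (FK k N)) (t : FK k N) (z : FK k N)
    (hz : z ∈ Algebra.adjoin k {t}) : bcHom A N s z ∈ G.polyRing (bcHom A N s t) := by
  induction hz using Algebra.adjoin_induction with
  | mem x hx =>
    rw [Set.mem_singleton_iff] at hx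
    subst hx
    exact (le_sup_right : Subring.closure {bcHom A N s x} ≤ _)
      (Subring.subset_closure (Set.mem_singleton _))
  | algebraMap c =>
    rw [bcHom_algebraMap]
    exact (le_sup_left : G.constRing ≤ _) ⟨((s c : A) : L), (s c).2, rfl⟩
  | add x y _ _ hx hy => rw [map_add]; exact add_mem hx hy
  | mul x y _ _ hx hy => rw [map_mul]; exact mul_mem hx hy

/-- base change maps the chart of `t` into the chart of `bc t` -/
theorem bcHom_mem_chart (G : Datum A π (FL L N) (FK k N)) (t c : FK k N)
    (hc : c ∈ G.chartk t) : bcHom A N s c ∈ G.chart (bcHom A N s t) := by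
  have hc' : IsIntegral (Algebra.adjoin k {t}) c := hc
  show IsIntegral (G.polyRing (bcHom A N s t)) (bcHom A N s c)
  let φ : (Algebra.adjoin k {t}) →+* (G.polyRing (bcHom A N s t)) :=
    ((bcHom A N s).comp (Algebra.adjoin k {t}).val.toRingHom).codRestrict
      (G.polyRing (bcHom A N s t)) (fun z => bcHom_mem_polyRing A π N s G t z z.2)
  exact IsIntegral.map_of_comp_eq φ (bcHom A N s) (by ext z; rfl) hc'

theorem finrank_adjoin_FL [NeZero N] (x : FL L N) (hx : (x : LaurentSeries L) = jqModC L) :
    Module.finrank L⟮x⟯ (FL L N) = dedekindPsi N := by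
  have : CharZero L := algebraRat.charZero L
  rw [Fermat.Agent.S37.H628.finrank_adjoin_subtype_eq_relfinrank' _ x hx,
    Fermat.Agent.S28.H988.laurentBaseChange_full_eq_fullC]
  exact Fermat.Agent.S28.H988.relfinrank_jField_full_eq L N (NeZero.ne N)
    (fun p hp _ => Nat.cast_ne_zero.mpr hp.ne_zero)

theorem finrank_adjoin_FK [NeZero N] (x : FK k N) (hx : (x : LaurentSeries k) = jqModC k) :
    Module.finrank k⟮x⟯ (FK k N) = dedekindPsi N := by
  have : CharZero k := algebraRat.charZero k
  exact Fermat.Agent.S37.H628.finrank_adjoin_fullC k N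
    (fun p hp _ => Nat.cast_ne_zero.mpr hp.ne_zero) x hx

/-- separability in characteristic `0` -/
theorem isSeparable_adjoin_of_charZero {k F : Type*} [Field k] [Field F] [Algebra k F]
    [CharZero k] (x : F) [FiniteDimensional k⟮x⟯ F] : Algebra.IsSeparable k⟮x⟯ F := by
  have : CharZero k⟮x⟯ := charZero_of_injective_algebraMap (algebraMap k k⟮x⟯).injective
  infer_instance

section GoodOfBc

variable [NeZero N] (G : Datum A π (FL L N) (FK k N))
    (hxL : ((G.x : FL L N) : LaurentSeries L) = jqModC L)
    (hxk : ((G.xk : FK k N) : LaurentSeries k) = jqModC k)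
    (hbx : bcHom A N s G.xk = G.x)
    (hlink : ∀ c : FK k N, ∃ h : bcHom A N s c ∈ G.O, G.ρ ⟨bcHom A N s c, h⟩ = c)

include hxL in
theorem finite_of_bc : FiniteDimensional L⟮G.x⟯ (FL L N) := by
  apply Module.finite_of_finrank_pos
  rw [finrank_adjoin_FL N _ hxL]
  exact Fermat.Agent.S28.H988.dedekindPsi_pos N (NeZero.ne N)

include hxk in
theorem finite_k_of_bc : FiniteDimensional k⟮G.xk⟯ (FK k N) := by
  apply Module.finite_of_finrank_pos
  rw [finrank_adjoin_FK N _ hxk]
  exact Fermat.Agent.S28.H988.dedekindPsi_pos N (NeZero.ne N)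

include hxL hxk in
theorem finrank_eq_of_bc :
    Module.finrank L⟮G.x⟯ (FL L N) = Module.finrank k⟮G.xk⟯ (FK k N) := by
  rw [finrank_adjoin_FL N _ hxL, finrank_adjoin_FK N _ hxk]

include hbx hlink in
theorem lift_fin_of_bc :
    ∀ c ∈ G.chartk G.xk, ∃ b ∈ G.chart G.x, ∃ hb : b ∈ G.O, G.ρ ⟨b, hb⟩ = c := by
  intro c hc
  obtain ⟨h, hρ⟩ := hlink c
  refine ⟨bcHom A N s c, ?_, h, hρ⟩
  have := bcHom_mem_chart A π N s G _ c hc
  rwa [hbx] at this

include hbx hlink in
theorem lift_inf_of_bc :
    ∀ c ∈ G.chartk G.xk⁻¹, ∃ b ∈ G.chart G.x⁻¹, ∃ hb : b ∈ G.O, G.ρ ⟨b, hb⟩ = c := by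
  intro c hc
  obtain ⟨h, hρ⟩ := hlink c
  refine ⟨bcHom A N s c, ?_, h, hρ⟩
  have := bcHom_mem_chart A π N s G _ c hc
  rwa [map_inv₀, hbx] at this

include hxL hxk hbx hlink in
/-- goodness of a datum with coordinate `j` which is compatible with the constant base change -/
theorem good_of_bc : G.Good := by
  have : CharZero k := algebraRat.charZero k
  have hfin := finite_of_bc A π N G hxL
  have hfink := finite_k_of_bc A π N G hxk
  exact Fermat.Agent.S37.Red.H217.good_of G hfin hfink (isSeparable_adjoin_of_charZero G.xk)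
    (finrank_eq_of_bc A π N G hxL hxk) (lift_fin_of_bc A π N s G hbx hlink)
    (lift_inf_of_bc A π N s G hbx hlink)

end GoodOfBc

/-- **The equal-characteristic constant datum has good charts.** -/
theorem eDatum_good [NeZero N] : (eDatum A π N s hπs hker).Good :=
  good_of_bc A π N s (eDatum A π N s hπs hker) (eDatum_x_coe A π N s hπs hker)
    (eDatum_xk_coe A π N s hπs hker) (bcHom_xk A π N s hπs hker) (bcHom_link A π N s hπs hker)

end Equal

end Fermat.Agent.S17.H320
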