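import Fermat.Agent.S17.H320.RedDatum
import Fermat.Agent.S29.H882.Inter
import Fermat.Agent.S37.H160.ValPoly
import Fermat.Agent.S28.H988.Degree

/-!
# S17 / G-DIV, piece RED (helper320), part 2: the value-group hypothesis in residue
characteristic `0`

`L ⊇ ℚ` a field, `A ⊆ L` a valuation subring CONTAINING `ℚ` (a ring hom `ιA : ℚ → A`),
`π : A → k` a ring hom to a field.  Then every nonzero `f ∈ F_L = L(X₀(N))` is a constant times a
fraction of integral `q`-series with nonzero reductions in `F_k` (`gVG`): write `f = r / t` with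
`r, t` in the `L`-span of a `ℚ`-linearly independent family of `F_ℚ`, and scale the coefficient
vectors to be primitive.  (Linear independence is preserved by `ℚ → k`.)
-/

set_option autoImplicit false
set_option synthInstance.maxHeartbeats 400000

noncomputable section

namespace Fermat.Agent.S17.H320

open ModularCurve AlgebraicCurve HahnSeries IsLocalRing
open Fermat.Agent.S37 Fermat.Agent.S37.Red

universe u

section VG

variable {L k : Type u} [Field L] [Algebra ℚ L] [Field k] [Algebra ℚ k]
variable (A : ValuationSubring L) (π : A →+* k) (N : ℕ)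

/-- scalar multiplication on Laurent series as multiplication by a constant series -/
theorem smul_eq_single_mul {R : Type*} [Field R] (c : R) (x : LaurentSeries R) :
    c • x = HahnSeries.single 0 c * x := by
  rw [HahnSeries.single_zero_mul_eq_smul]

/-- **Primitive scaling**: an `L`-combination of a `ℚ`-independent family of `F_ℚ` is a nonzero
constant times an integral `q`-series with nonzero reduction. -/
theorem exists_intQ_scale (ιA : ℚ →+* A) {m : ℕ} (e : Fin m → LaurentSeries ℚ)
    (heF : ∀ i, e i ∈ modularFunctionFieldFull N) (hind : LinearIndependent ℚ e)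
    (a : Fin m → L) (ha : ∃ i, a i ≠ 0) :
    ∃ (c : L) (y : H940.intQ A π (laurentBaseChange L (modularFunctionFieldFull N))
        (modularFunctionFieldFullC k N)),
      c ≠ 0 ∧ H940.redQ A π _ _ y ≠ 0 ∧
      ∑ i, a i • coeffEmb L (e i) =
        HahnSeries.single 0 c * ((y : FL L N) : LaurentSeries L) := by
  classical
  obtain ⟨i₀, -, hi₀, hdiv⟩ := H160.exists_dvd_all A Finset.univ a
    (by obtain ⟨i, hi⟩ := ha; exact ⟨i, Finset.mem_univ _, hi⟩)
  let α : Fin m → A := fun i => ⟨a i / a i₀, hdiv i (Finset.mem_univ _)⟩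
  let Y : LaurentSeries A := ∑ i, HahnSeries.single 0 (α i) * coeffMap ιA (e i)
  have hYL : coeffMap A.subtype Y =
      ∑ i, HahnSeries.single 0 (a i / a i₀) * coeffEmb L (e i) := by
    simp only [Y, map_sum, map_mul, coeffMap_single, coeffMap_coeffMap]
    refine Finset.sum_congr rfl fun i _ => ?_
    congr 1
    exact coeffMap_congr (Subsingleton.elim _ _) _
  have hYk : coeffMap π Y = ∑ i, HahnSeries.single 0 (π (α i)) * coeffEmb k (e i) := by
    simp only [Y, map_sum, map_mul, coeffMap_single, coeffMap_coeffMap]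
    refine Finset.sum_congr rfl fun i _ => ?_
    congr 1
    exact coeffMap_congr (Subsingleton.elim _ _) _
  have hmemL : coeffMap A.subtype Y ∈ laurentBaseChange L (modularFunctionFieldFull N) := by
    rw [hYL]
    refine sum_mem fun i _ => mul_mem ?_ (coeffEmb_mem_laurentBaseChange L (heF i))
    rw [← algebraMap_laurentSeries_eq_single]
    exact IntermediateField.algebraMap_mem _ _
  have hmemk : coeffMap π Y ∈ modularFunctionFieldFullC k N := by
    rw [← Fermat.Agent.S28.H988.laurentBaseChange_full_eq_fullC, hYk]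
    refine sum_mem fun i _ => mul_mem ?_ (coeffEmb_mem_laurentBaseChange k (heF i))
    rw [← algebraMap_laurentSeries_eq_single]
    exact IntermediateField.algebraMap_mem _ _
  have hα₀ : α i₀ = 1 := by
    apply Subtype.ext
    show a i₀ / a i₀ = 1
    exact div_self hi₀
  have hne : coeffMap π Y ≠ 0 := by
    rw [hYk]
    intro h0
    have hlin := Fermat.Agent.S24.Deg457.linearIndependent_coeffMap (algebraMap ℚ k) e hind
    rw [Fintype.linearIndependent_iff] at hlin
    have h1 := hlin (fun i => π (α i)) (by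
      rw [← h0]
      refine Finset.sum_congr rfl fun i _ => ?_
      rw [smul_eq_single_mul]
      rfl) i₀
    simp only [hα₀, map_one] at h1
    exact one_ne_zero h1
  refine ⟨a i₀, ⟨⟨coeffMap A.subtype Y, hmemL⟩, Y, rfl, hmemk⟩, hi₀, ?_, ?_⟩
  · intro h
    apply hne
    have h2 := congrArg Subtype.val h
    rw [H940.coe_redQ A π _ _ ⟨⟨coeffMap A.subtype Y, hmemL⟩, Y, rfl, hmemk⟩ (y := Y) rfl] at h2
    exact h2
  · show _ = HahnSeries.single 0 (a i₀) * coeffMap A.subtype Y
    rw [hYL, Finset.mul_sum]
    refine Finset.sum_congr rfl fun i _ => ?_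
    rw [smul_eq_single_mul, ← mul_assoc, HahnSeries.single_mul_single, zero_add,
      mul_div_cancel₀ _ hi₀]

/-- **The value-group hypothesis holds in residue characteristic `0`.** -/
theorem gVG (ιA : ℚ →+* A) : GVG A π N := by
  classical
  intro f hf
  obtain ⟨r, hr, t, ht, hft⟩ := Fermat.Agent.S29.H882.exists_div_of_mem_laurentBaseChange f.2
  obtain ⟨m, e, heF, hind, a, b, hra, htb⟩ :=
    Fermat.Agent.S29.H882.exists_indep_family (modularFunctionFieldFull N) hr ht
  have hf0 : (f : LaurentSeries L) ≠ 0 := fun h => hf (Subtype.ext h)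
  have ht0 : t ≠ 0 := by
    rintro rfl
    rw [div_zero] at hft
    exact hf0 hft
  have hr0 : r ≠ 0 := by
    rintro rfl
    rw [zero_div] at hft
    exact hf0 hft
  have ha : ∃ i, a i ≠ 0 := by
    by_contra hcon
    push Not at hcon
    apply hr0
    rw [hra]
    exact Finset.sum_eq_zero fun i _ => by rw [hcon i, zero_smul]
  have hb : ∃ i, b i ≠ 0 := by
    by_contra hcon
    push Not at hcon
    apply ht0
    rw [htb]
    exact Finset.sum_eq_zero fun i _ => by rw [hcon i, zero_smul]
  obtain ⟨c₁, y₁, hc₁, hy₁, e₁⟩ := exists_intQ_scale A π N ιA e heF hind a ha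
  obtain ⟨c₂, y₂, hc₂, hy₂, e₂⟩ := exists_intQ_scale A π N ιA e heF hind b hb
  refine ⟨c₁ / c₂, div_ne_zero hc₁ hc₂, y₁, y₂, hy₁, hy₂, ?_⟩
  apply Subtype.ext
  show (f : LaurentSeries L) * ((y₂ : FL L N) : LaurentSeries L) =
    algebraMap L (LaurentSeries L) (c₁ / c₂) * ((y₁ : FL L N) : LaurentSeries L)
  rw [algebraMap_laurentSeries_eq_single]
  rw [← hra] at e₁
  rw [← htb] at e₂
  have hc₂' : (HahnSeries.single 0 c₂ : LaurentSeries L) ≠ 0 := by
    rw [Ne, HahnSeries.single_eq_zero_iff]
    exact hc₂
  have hs : (HahnSeries.single 0 (c₁ / c₂) : LaurentSeries L) * HahnSeries.single 0 c₂ =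
      HahnSeries.single 0 c₁ := by
    rw [HahnSeries.single_mul_single, zero_add, div_mul_cancel₀ _ hc₂]
  have hy₂0 : ((y₂ : FL L N) : LaurentSeries L) ≠ 0 := by
    intro h
    apply ht0
    rw [e₂, h, mul_zero]
  rw [hft, e₁, e₂, ← hs]
  field_simp

end VG

end Fermat.Agent.S17.H320
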