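import Fermat.Agent.S17.H320.WHMDefs
import Fermat.Agent.S17.H230.PlacePoint
import Fermat.Agent.S17.H710.Wall.Defs
import Fermat.Agent.S17.H380.AbsSegre

/-!
# S17 / tower H — GAUSS / WHM (helper320): the Weil height machine for fixed divisors

`whm : MultislotStatement K → PtStatement E → WHMStatement E`.

For a FIXED finite family `f` generating `O(B)` (`ExactPole f B`) the height of the vector of
values of `f` at a place `P` outside the support of `B` is `(B . P) + O(1)`, where
`(B . P) = pairPt E B P = Σ_A B(A) hD(A, P)` is the distance pairing of the contract.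
No `(E3)`, no projective normality, no Riemann–Roch.

Steps:
1. `ht_ptD_le_of_exact` (comparison of generating families): if `v : κ → F` lies in `L(B)` and
   the subfamily `v ∘ j` generates `O(B)` then `ht (ptD B v P) ≤ ht ((ptD B v P) ∘ j) + C`
   uniformly in ALL places `P`.  [The point `ptD B v P` lies on the cone of the homogeneous
   relations of `v` (`onCone_ptD`); the coordinates `Y_{j i}` have no common zero on that cone,
   whose points are places (`H710.exists_place_of_onCone`); Nullstellensatz lower bound = wall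
   leaf A3 (`Wall.MultislotStatement`, one slot, degree one).]
2. Products of generating families generate the sum of the divisors (`ExactPole.mul`,
   `ExactPole.pi`), the point of a product family is the Segre product of the points (`ptD_pi`),
   heights add up (`ht_ptD_mul`, `ht_ptD_pi`).
3. Reference families: `E.x` generates `O(m ∞)` (`exactPole_x`), the secant forms through `A`
   generate `O(m ∞ - A)` (`exactPole_sec`), `ptD (m ∞) E.x P` is proportional to `E.pt P`
   (`ptD_x_prop`), and the point of the secant family at `P ≠ A` has height `ht (pt A ∧ pt P)`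
   (`ht_ptD_sec`).
4. `whm_core`: write `B = Σ A₁ - Σ A₂`; the families
   `f ⊗ (secant products of the A₁) ⊗ (monomials of degree #α₂)` and
   `(secant products of the A₂) ⊗ (monomials of degree #α₁)` generate the same `O(B')`;
   compare both with the joint family (step 1) and unfold `hD`.
-/

set_option autoImplicit false
set_option linter.unusedSectionVars false

noncomputable section

open AlgebraicCurve MvPolynomial

namespace Fermat.Agent.S17.H320

open Fermat.Agent.Lib.RR Fermat.Agent.S17.HWall Fermat.Agent.S17.HContract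
open Fermat.Agent.S17.H230 Fermat.Agent.S17.H710 Fermat.Agent.S17.Wall

variable {K F : Type*} [Field K] [CharZero K] [Field F] [Algebra K F] [FF1 K F]

/-! ## Step 1: comparison of generating families -/

section Cmp

theorem ExactPole.mem_L {ι : Type*} {f : ι → F} {B : Divisor K F} (h : ExactPole f B) (i : ι) :
    f i ∈ riemannRochSpace B :=
  mem_L_iff.mpr fun P => (h P).1 i

/-- The point `ptD B v P` satisfies the homogeneous relations of `v`. -/
theorem onCone_ptD {κ : Type*} (v : κ → F) (B : Divisor K F)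
    (hv : ∀ k, v k ∈ riemannRochSpace B) (P : Place K F) : OnCone v (ptD B v P) := by
  intro d R hR h0
  -- the normalised family, in the valuation ring
  have hreg : ∀ k, RegAt P (v k * unif P ^ (B P)) := fun k => by
    have := regAt_normAt (ordGE_of_mem_L hv P) k
    simpa using this
  let w : κ → P.toValuationSubring := fun k => ⟨v k * unif P ^ (B P), hreg k⟩
  have h1 : ptD B v P = fun k => valO P (w k) := by
    funext k
    rw [ptD_apply, valAt_of_mem P (hreg k)]
  rw [h1]
  have h2 : eval (fun k => valO P (w k)) R = valO P (aeval w R) := by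
    rw [← MvPolynomial.aeval_eq_eval]
    have := MvPolynomial.comp_aeval (R := K) (f := w) (valO P)
    have h3 := congrArg (fun φ : MvPolynomial κ K →ₐ[K] K => φ R) this
    simp only [AlgHom.comp_apply] at h3
    rw [h3]
  rw [h2]
  have h4 : aeval w R = 0 := by
    apply Subtype.ext
    have h5 : ((aeval w R : P.toValuationSubring) : F)
        = aeval (fun k => unif P ^ (B P) * v k) R := by
      have := MvPolynomial.map_aeval (R := K) w P.toValuationSubring.subtype R
      rw [ValuationSubring.subtype_apply] at this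
      rw [this, MvPolynomial.aeval_def]
      have hc : (P.toValuationSubring.subtype.comp (algebraMap K ↥P.toValuationSubring))
          = algebraMap K F := by
        ext c
        rfl
      have hw : (fun i => P.toValuationSubring.subtype (w i))
          = fun k => unif P ^ (B P) * v k := by
        funext k
        show v k * unif P ^ (B P) = _
        ring
      rw [hc, hw]
      rfl
    rw [h5, aeval_mul_of_isHomogeneous hR, h0, mul_zero]
    rfl
  rw [h4, map_zero]

/-- nonunits of the valuation ring of a place -/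
theorem mem_nonunits_place_iff (P : Place K F) (a : F) :
    a ∈ P.toValuationSubring.nonunits ↔ a = 0 ∨ 0 < P.ord a := by
  constructor
  · intro h
    have hmem : a ∈ P.toValuationSubring := ValuationSubring.nonunits_subset h
    have h2 : (⟨a, hmem⟩ : P.toValuationSubring) ∈ IsLocalRing.maximalIdeal P.toValuationSubring := by
      rw [IsLocalRing.mem_maximalIdeal]
      exact ValuationSubring.coe_mem_nonunits_iff.mp h
    exact (mem_maximalIdeal_iff P ⟨a, hmem⟩).mp h2
  · intro h
    have hmem : a ∈ P.toValuationSubring := by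
      rcases h with h | h
      · rw [h]; exact zero_mem _
      · exact mem_of_ord_nonneg P h.le
    have h2 : (⟨a, hmem⟩ : P.toValuationSubring) ∈ IsLocalRing.maximalIdeal P.toValuationSubring :=
      (mem_maximalIdeal_iff P ⟨a, hmem⟩).mpr h
    rw [IsLocalRing.mem_maximalIdeal] at h2
    exact ValuationSubring.coe_mem_nonunits_iff.mpr h2

/-- **Comparison of generating families.** -/
theorem ht_ptD_le_of_exact [IsAlgClosed K] [Algebra.IsAlgebraic ℚ K]
    (hA3 : MultislotStatement K)
    {κ ι : Type} [Fintype κ] [Fintype ι] (v : κ → F) (j : ι → κ) (B : Divisor K F)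
    (hv : ∀ k, v k ∈ riemannRochSpace B) (hex : ExactPole (fun i => v (j i)) B) :
    ∃ C : ℝ, ∀ P : Place K F, ht (ptD B v P) ≤ ht (fun i => ptD B v P (j i)) + C := by
  classical
  obtain ⟨t, htr, hfin⟩ := FF1.exists_finite (K := K) (F := F)
  let n := Fintype.card κ
  let e : κ ≃ Fin n := Fintype.equivFin κ
  let v' : Fin n → F := fun k => v (e.symm k)
  let rel : Set (MvPolynomial (Fin n) K) := {G | ∃ d, G.IsHomogeneous d ∧ aeval v' G = 0}
  let p : ι → MvPolynomial (Fin 1 × Fin n) K := fun i => X (0, e (j i))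
  have hrel : ∀ G ∈ rel, ∃ d : ℕ, G.IsHomogeneous d := fun G hG => by
    obtain ⟨d, hd, _⟩ := hG
    exact ⟨d, hd⟩
  have hp : ∀ i, MultiHom (p i) 1 := by
    intro i y c
    simp [p]
  have hnz : ∀ y : Fin 1 → Fin n → K, (∀ l, y l ≠ 0) →
      (∀ l, ∀ G ∈ rel, eval (y l) G = 0) →
      ∃ i, eval (fun q : Fin 1 × Fin n => y q.1 q.2) (p i) ≠ 0 := by
    intro y hy0 hyrel
    by_contra hcon
    simp only [not_exists, ne_eq, not_not] at hcon
    have hzero : ∀ i, y 0 (e (j i)) = 0 := fun i => by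
      have := hcon i
      simpa [p] using this
    obtain ⟨k₀, hk₀⟩ := Function.ne_iff.mp (hy0 0)
    have hcone : OnCone v' (y 0) := fun d G hG hG0 => hyrel 0 G ⟨d, hG, hG0⟩
    obtain ⟨hv0, P, hP⟩ := exists_place_of_onCone htr v' (y 0) hcone k₀ hk₀
    obtain ⟨i, hi0, hiord⟩ := (hex P).2
    have h1 := hP (e (j i))
    rw [hzero i, zero_div, map_zero, sub_zero] at h1
    rw [mem_nonunits_place_iff] at h1
    have hvi : v' (e (j i)) = v (j i) := by simp [v']
    rw [hvi] at h1
    rcases h1 with h1 | h1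
    · rcases div_eq_zero_iff.mp h1 with h | h
      · exact hi0 h
      · exact hv0 h
    · rw [div_eq_mul_inv, P.ord_mul hi0 (inv_ne_zero hv0), P.ord_inv, hiord] at h1
      have h2 := (mem_L_iff.mp (hv (e.symm k₀)) P).resolve_left hv0
      have h3 : v' k₀ = v (e.symm k₀) := rfl
      rw [h3] at h1
      omega
  obtain ⟨C, hC⟩ := hA3 n 1 ι rel hrel p 1 hp hnz
  refine ⟨C, fun P => ?_⟩
  have hne : ptD B v P ≠ 0 := by
    obtain ⟨i, hi0, hiord⟩ := (hex P).2
    exact ptD_ne_zero ⟨j i, hi0, hiord⟩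
  have hne' : (fun k : Fin n => ptD B v P (e.symm k)) ≠ 0 := by
    intro h0
    apply hne
    funext k
    have := congrFun h0 (e k)
    simpa using this
  have hcone' : OnCone v' (fun k : Fin n => ptD B v P (e.symm k)) :=
    onCone_ptD v' B (fun k => hv (e.symm k)) P
  have h := hC (fun _ => fun k : Fin n => ptD B v P (e.symm k)) (fun _ => hne')
    (fun _ G hG => by
      obtain ⟨d, hd, hd0⟩ := hG
      exact hcone' d G hd hd0)
  simp only [Nat.cast_one, one_mul, Finset.univ_unique, Finset.sum_singleton] at h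
  have h5 : ht (fun k : Fin n => ptD B v P (e.symm k)) = ht (ptD B v P) :=
    H380.absLogHeight_comp_equiv e.symm (ptD B v P)
  have h6 : (fun i => eval (fun q : Fin 1 × Fin n => ptD B v P (e.symm q.2)) (p i))
      = fun i => ptD B v P (j i) := by
    funext i
    simp [p]
  rw [h5, h6] at h
  exact h

end Cmp

/-! ## Step 2: products of generating families -/

section Fam

theorem isIntegral_all [Algebra.IsAlgebraic ℚ K] (c : K) : IsIntegral ℚ c :=
  (Algebra.IsAlgebraic.isAlgebraic c).isIntegral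

theorem ord_prod_ne_zero (P : Place K F) {α : Type*} (s : Finset α) (f : α → F)
    (h : ∀ a ∈ s, f a ≠ 0) : P.ord (∏ a ∈ s, f a) = ∑ a ∈ s, P.ord (f a) := by
  classical
  induction s using Finset.induction_on with
  | empty => simp [P.ord_one]
  | insert a s ha ih =>
    have h1 : ∀ b ∈ s, f b ≠ 0 := fun b hb => h b (Finset.mem_insert_of_mem hb)
    have h2 : ∏ b ∈ s, f b ≠ 0 := Finset.prod_ne_zero_iff.mpr h1
    rw [Finset.prod_insert ha, Finset.sum_insert ha,
      P.ord_mul (h a (Finset.mem_insert_self a s)) h2, ih h1]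

theorem ExactPole.mul {ι ι' : Type*} {f : ι → F} {g : ι' → F} {B B' : Divisor K F}
    (hf : ExactPole f B) (hg : ExactPole g B') :
    ExactPole (fun p : ι × ι' => f p.1 * g p.2) (B + B') := by
  intro P
  refine ⟨fun p => ?_, ?_⟩
  · rcases eq_or_ne (f p.1) 0 with h1 | h1
    · left; simp [h1]
    rcases eq_or_ne (g p.2) 0 with h2 | h2
    · left; simp [h2]
    right
    have h3 := ((hf P).1 p.1).resolve_left h1
    have h4 := ((hg P).1 p.2).resolve_left h2
    rw [P.ord_mul h1 h2, Finsupp.add_apply]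
    omega
  · obtain ⟨i, hi0, hi⟩ := (hf P).2
    obtain ⟨j, hj0, hj⟩ := (hg P).2
    refine ⟨(i, j), mul_ne_zero hi0 hj0, ?_⟩
    show P.ord (f i * g j) = _
    rw [P.ord_mul hi0 hj0, Finsupp.add_apply]
    omega

theorem ExactPole.pi {α : Type*} [Fintype α] {ι : α → Type*} {f : (a : α) → ι a → F}
    {D : α → Divisor K F} (h : ∀ a, ExactPole (f a) (D a)) :
    ExactPole (fun s : (a : α) → ι a => ∏ a, f a (s a)) (∑ a, D a) := by
  classical
  intro P
  have hD : (∑ a, D a) P = ∑ a, D a P := by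
    rw [Finsupp.finsetSum_apply]
  refine ⟨fun s => ?_, ?_⟩
  · by_cases h0 : ∀ a, f a (s a) ≠ 0
    · right
      rw [ord_prod_ne_zero P _ _ (fun a _ => h0 a), hD, ← Finset.sum_neg_distrib]
      exact Finset.sum_le_sum fun a _ => ((h a P).1 (s a)).resolve_left (h0 a)
    · left
      simp only [not_forall, not_not] at h0
      obtain ⟨a, ha⟩ := h0
      exact Finset.prod_eq_zero (Finset.mem_univ a) ha
  · choose s hs0 hs using fun a => (h a P).2
    refine ⟨s, Finset.prod_ne_zero_iff.mpr fun a _ => hs0 a, ?_⟩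
    show P.ord (∏ a, f a (s a)) = _
    rw [ord_prod_ne_zero P _ _ (fun a _ => hs0 a), hD, ← Finset.sum_neg_distrib]
    exact Finset.sum_congr rfl fun a _ => hs a

/-- the point of a product family is the Segre product of the points -/
theorem ptD_pi {α : Type*} [Fintype α] {ι : α → Type*} {f : (a : α) → ι a → F}
    {D : α → Divisor K F} (h : ∀ a i, f a i ∈ riemannRochSpace (D a)) (P : Place K F)
    (s : (a : α) → ι a) :
    ptD (∑ a, D a) (fun s : (a : α) → ι a => ∏ a, f a (s a)) P s
      = ∏ a, ptD (D a) (f a) P (s a) := by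
  classical
  have hD : (∑ a, D a) P = ∑ a, D a P := by
    rw [Finsupp.finsetSum_apply]
  have hreg : ∀ a, RegAt P (f a (s a) * unif P ^ (D a P)) := fun a => by
    have := regAt_normAt (ordGE_of_mem_L (h a) P) (s a)
    simpa using this
  rw [ptD_apply]
  simp only [ptD_apply]
  rw [← valAt_prod Finset.univ (fun a _ => hreg a)]
  congr 1
  rw [Finset.prod_mul_distrib, hD]
  congr 1
  have hu := unif_ne_zero P
  induction (Finset.univ : Finset α) using Finset.induction_on with
  | empty => simp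
  | insert a t ha ih =>
    rw [Finset.sum_insert ha, Finset.prod_insert ha, zpow_add₀ hu, ih]

theorem ptD_mul' {ι ι' : Type*} {f : ι → F} {g : ι' → F} {B B' : Divisor K F}
    (hf : ∀ i, f i ∈ riemannRochSpace B) (hg : ∀ j, g j ∈ riemannRochSpace B') (P : Place K F) :
    ptD (B + B') (fun p : ι × ι' => f p.1 * g p.2) P
      = fun p : ι × ι' => ptD B f P p.1 * ptD B' g P p.2 := by
  funext p
  exact ptD_mul hf hg P p.1 p.2

variable [Algebra.IsAlgebraic ℚ K]

theorem ht_ptD_mul {ι ι' : Type*} [Finite ι] [Finite ι'] {f : ι → F} {g : ι' → F}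
    {B B' : Divisor K F} (hf : ExactPole f B) (hg : ExactPole g B') (P : Place K F) :
    ht (ptD (B + B') (fun p : ι × ι' => f p.1 * g p.2) P)
      = ht (ptD B f P) + ht (ptD B' g P) := by
  rw [ptD_mul' hf.mem_L hg.mem_L]
  exact H380.absLogHeight_fun_mul_eq (fun _ => isIntegral_all _) (fun _ => isIntegral_all _)
    (ptD_ne_zero (hf P).2) (ptD_ne_zero (hg P).2)

theorem ht_ptD_pi {α : Type*} [Fintype α] {ι : α → Type*} [∀ a, Finite (ι a)]
    {f : (a : α) → ι a → F} {D : α → Divisor K F} (h : ∀ a, ExactPole (f a) (D a))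
    (P : Place K F) :
    ht (ptD (∑ a, D a) (fun s : (a : α) → ι a => ∏ a, f a (s a)) P)
      = ∑ a, ht (ptD (D a) (f a) P) := by
  have h1 : ptD (∑ a, D a) (fun s : (a : α) → ι a => ∏ a, f a (s a)) P
      = fun s : (a : α) → ι a => ∏ a, ptD (D a) (f a) P (s a) := by
    funext s
    exact ptD_pi (fun a => (h a).mem_L) P s
  rw [h1]
  exact H380.absLogHeight_fun_prod_eq (fun _ _ => isIntegral_all _)
    (fun a => ptD_ne_zero (h a P).2)

end Fam

/-! ## Step 3: the reference families -/

section Loc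

/-- coefficient vector of the secant form `z ↦ (y ∧ z)_p` -/
def secVec {n : ℕ} (y : Fin n → K) (p : Fin n × Fin n) : Fin n → K :=
  Pi.single p.2 (y p.1) - Pi.single p.1 (y p.2)

theorem dot_secVec {n : ℕ} (y z : Fin n → K) (p : Fin n × Fin n) :
    dot (secVec y p) z = wedge y z p := by
  simp [secVec, wedge, dot, sub_dotProduct, single_dotProduct]

/-- the secant forms through `A`, as functions -/
def secFam (E : EmbData K F) (A : Place K F) : Fin (E.r + 1) × Fin (E.r + 1) → F :=
  fun p => lin E.x (secVec (E.pt A) p)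

theorem lin_single (E : EmbData K F) (i : Fin (E.r + 1)) :
    lin E.x (Pi.single i (1 : K)) = E.x i := by
  classical
  unfold lin
  rw [Finset.sum_eq_single i]
  · simp
  · intro j _ hj
    simp [hj]
  · intro h
    exact absurd (Finset.mem_univ i) h

theorem x_mem_L (E : EmbData K F) (i : Fin (E.r + 1)) :
    E.x i ∈ riemannRochSpace (E.m • prim E.vinf) := by
  rw [← E.x_span]
  exact Submodule.subset_span ⟨i, rfl⟩

theorem Z_eq_zero_of_dot_ne (E : EmbData K F) {a : Fin (E.r + 1) → K} {P : Place K F}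
    (h : dot a (E.pt P) ≠ 0) : a ≠ 0 ∧ E.Z a P = 0 := by
  have ha : a ≠ 0 := by
    rintro rfl
    exact h (by simp [dot])
  refine ⟨ha, ?_⟩
  have h1 := (E.pt_spec P a ha).not.mp h
  have h2 : 0 ≤ E.Z a P := by
    have := E.Z_nonneg a
    rw [Finsupp.le_def] at this
    simpa using this P
  have h3 : E.Z a P = hypDiv E.vinf E.m E.x a P := rfl
  omega

theorem exactPole_x (E : EmbData K F) (hpt : ∀ P : Place K F, E.pt P ≠ 0) :
    ExactPole E.x (E.m • prim E.vinf) := by
  classical
  intro P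
  refine ⟨fun i => (mem_L_iff.mp (x_mem_L E i)) P, ?_⟩
  obtain ⟨i, hi⟩ := Function.ne_iff.mp (hpt P)
  have hdot : dot (Pi.single i (1 : K)) (E.pt P) ≠ 0 := by
    simpa [dot, single_dotProduct] using hi
  obtain ⟨ha, hZ⟩ := Z_eq_zero_of_dot_ne E hdot
  rw [E.Z_apply ha P, lin_single] at hZ
  have hx0 : E.x i ≠ 0 := by
    have := E.lin_ne_zero ha
    rwa [lin_single] at this
  exact ⟨i, hx0, by omega⟩

theorem exactPole_sec (E : EmbData K F) (hPt : PtStatement E) (A : Place K F) :
    ExactPole (secFam E A) (E.m • prim E.vinf - prim A) := by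
  classical
  intro P
  have hsub : (E.m • prim E.vinf - prim A : Divisor K F) P
      = (E.m • prim E.vinf : Divisor K F) P - (if P = A then 1 else 0) := by
    rw [Finsupp.sub_apply]
    congr 1
    by_cases h : P = A
    · subst h; simp [prim]
    · simp [prim, h]
  refine ⟨fun p => ?_, ?_⟩
  · by_cases ha : secVec (E.pt A) p = 0
    · left
      show lin E.x (secVec (E.pt A) p) = 0
      rw [ha]; simp [lin]
    · right
      have hZ := E.Z_apply ha P
      have hZ0 : 0 ≤ E.Z (secVec (E.pt A) p) P := by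
        have := E.Z_nonneg (secVec (E.pt A) p)
        rw [Finsupp.le_def] at this
        simpa using this P
      show -(E.m • prim E.vinf - prim A : Divisor K F) P ≤ P.ord (lin E.x (secVec (E.pt A) p))
      rw [hsub]
      by_cases hPA : P = A
      · subst hPA
        have h1 : dot (secVec (E.pt P) p) (E.pt P) = 0 := by
          rw [dot_secVec]; simp [wedge, mul_comm]
        have h2 : 0 < E.Z (secVec (E.pt P) p) P := (E.pt_spec P _ ha).mp h1
        simp only [if_true]
        omega
      · simp only [hPA, if_false]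
        omega
  · by_cases hPA : P = A
    · subst hPA
      obtain ⟨p, hp⟩ := Function.ne_iff.mp (hPt.2.2.2 P)
      have hp' : wedge (E.pt P) (E.tn P) p ≠ 0 := by simpa using hp
      have hdot : dot (secVec (E.pt P) p) (E.tn P) ≠ 0 := by rwa [dot_secVec]
      have ha : secVec (E.pt P) p ≠ 0 := by
        intro h0
        apply hdot
        rw [h0]; simp [dot]
      have h1 : dot (secVec (E.pt P) p) (E.pt P) = 0 := by
        rw [dot_secVec]; simp [wedge, mul_comm]
      have h2 : 0 < E.Z (secVec (E.pt P) p) P := (E.pt_spec P _ ha).mp h1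
      have h3 : ¬ 2 ≤ E.Z (secVec (E.pt P) p) P := fun h =>
        hdot ((E.tn_spec P _ ha).mpr h).2
      have hZ := E.Z_apply ha P
      refine ⟨p, E.lin_ne_zero ha, ?_⟩
      show P.ord (lin E.x (secVec (E.pt P) p)) = _
      rw [hsub]
      simp only [if_true]
      omega
    · obtain ⟨p, hp⟩ := Function.ne_iff.mp (hPt.2.2.1 A P (Ne.symm hPA))
      have hp' : wedge (E.pt A) (E.pt P) p ≠ 0 := by simpa using hp
      have hdot : dot (secVec (E.pt A) p) (E.pt P) ≠ 0 := by rwa [dot_secVec]
      obtain ⟨ha, hZ0⟩ := Z_eq_zero_of_dot_ne E hdot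
      have hZ := E.Z_apply ha P
      refine ⟨p, E.lin_ne_zero ha, ?_⟩
      show P.ord (lin E.x (secVec (E.pt A) p)) = _
      rw [hsub]
      simp only [hPA, if_false]
      omega

/-- two nonzero vectors with the same orthogonal linear forms are proportional -/
theorem exists_smul_of_same_ann {n : ℕ} (y z : Fin n → K) (hy : y ≠ 0) (hz : z ≠ 0)
    (h : ∀ a : Fin n → K, a ≠ 0 → (dot a y = 0 ↔ dot a z = 0)) :
    ∃ c : K, c ≠ 0 ∧ y = c • z := by
  classical
  obtain ⟨k, hk⟩ := Function.ne_iff.mp hz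
  have hk' : z k ≠ 0 := by simpa using hk
  have key : ∀ i, z k * y i = z i * y k := by
    intro i
    by_cases hik : i = k
    · subst hik; ring
    have ha : secVec z (k, i) ≠ 0 := by
      intro h0
      have := congrFun h0 i
      simp [secVec, hik] at this
      exact hk' this
    have h1 : dot (secVec z (k, i)) z = 0 := by
      rw [dot_secVec]; simp [wedge, mul_comm]
    have h2 := (h _ ha).mpr h1
    rw [dot_secVec] at h2
    simp only [wedge] at h2
    linear_combination h2
  have hyk : y k ≠ 0 := by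
    intro h0
    apply hy
    funext i
    have := key i
    rw [h0, mul_zero] at this
    rcases mul_eq_zero.mp this with h | h
    · exact absurd h hk'
    · simpa using h
  refine ⟨y k / z k, div_ne_zero hyk hk', ?_⟩
  funext i
  have := key i
  simp only [Pi.smul_apply, smul_eq_mul]
  field_simp
  linear_combination this

theorem ptD_x_prop (E : EmbData K F) (hpt : ∀ P : Place K F, E.pt P ≠ 0) (P : Place K F) :
    ∃ c : K, c ≠ 0 ∧ ptD (E.m • prim E.vinf) E.x P = c • E.pt P := by
  refine exists_smul_of_same_ann _ _ (ptD_ne_zero ((exactPole_x E hpt) P).2) (hpt P)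
    fun a ha => ?_
  have h1 := dot_ptD_eq_zero_iff (x_mem_L E) P a
  have hf : (∑ i, a i • E.x i) ∈ riemannRochSpace (E.m • prim E.vinf) :=
    Submodule.sum_mem _ fun i _ => Submodule.smul_mem _ _ (x_mem_L E i)
  have h2 := mem_L_sub_prim_iff hf P
  have h3 := E.pt_spec P a ha
  have h4 := E.Z_apply ha P
  have h5 : E.Z a P = hypDiv E.vinf E.m E.x a P := rfl
  have h6 : lin E.x a = ∑ i, a i • E.x i := rfl
  have h7 := E.lin_ne_zero ha
  show (∑ i, a i * ptD (E.m • prim E.vinf) E.x P i = 0) ↔ _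
  rw [h1, h2, h3, ← h5, h4, ← h6]
  constructor
  · rintro (h | h)
    · exact absurd h h7
    · omega
  · intro h
    right
    omega

theorem ptD_sec (E : EmbData K F) (A P : Place K F) (hPA : P ≠ A) :
    ptD (E.m • prim E.vinf - prim A) (secFam E A) P
      = wedge (E.pt A) (ptD (E.m • prim E.vinf) E.x P) := by
  classical
  funext p
  have hsub : (E.m • prim E.vinf - prim A : Divisor K F) P
      = (E.m • prim E.vinf : Divisor K F) P := by
    rw [Finsupp.sub_apply]
    simp [prim, hPA]
  rw [ptD_apply, hsub, ← dot_secVec]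
  have := dot_ptD (x_mem_L E) P (secVec (E.pt A) p)
  show _ = ∑ i, secVec (E.pt A) p i * ptD (E.m • prim E.vinf) E.x P i
  rw [this]
  rfl

variable [Algebra.IsAlgebraic ℚ K]

theorem ht_ptD_x (E : EmbData K F) (hpt : ∀ P : Place K F, E.pt P ≠ 0) (P : Place K F) :
    ht (ptD (E.m • prim E.vinf) E.x P) = ht (E.pt P) := by
  obtain ⟨c, hc, h⟩ := ptD_x_prop E hpt P
  rw [h]
  exact H380.absLogHeight_smul _ (fun _ => isIntegral_all _) hc (isIntegral_all _)

theorem ht_ptD_sec (E : EmbData K F) (hpt : ∀ P : Place K F, E.pt P ≠ 0) (A P : Place K F)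
    (hPA : P ≠ A) :
    ht (ptD (E.m • prim E.vinf - prim A) (secFam E A) P) = ht (wedge (E.pt A) (E.pt P)) := by
  obtain ⟨c, hc, h⟩ := ptD_x_prop E hpt P
  rw [ptD_sec E A P hPA, h]
  have h1 : wedge (E.pt A) (c • E.pt P) = c • wedge (E.pt A) (E.pt P) := by
    funext p
    simp only [wedge, Pi.smul_apply, smul_eq_mul]
    ring
  rw [h1]
  exact H380.absLogHeight_smul _ (fun _ => isIntegral_all _) hc (isIntegral_all _)

end Loc

/-! ## Step 4: the machine -/

section Main

/-! ### The pairing is additive -/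

/-- the pairing with a fixed point as an additive map -/
def pairPtHom (E : EmbData K F) (P : Place K F) : Divisor K F →+ ℝ :=
  Finsupp.liftAddHom fun A => (AddMonoidHom.mulRight (hD E A P)).comp (Int.castAddHom ℝ)

theorem pairPtHom_apply (E : EmbData K F) (P : Place K F) (D : Divisor K F) :
    pairPtHom E P D = pairPt E D P := by
  unfold pairPtHom pairPt
  rw [Finsupp.liftAddHom_apply]
  rfl

theorem pairPt_prim (E : EmbData K F) (A P : Place K F) : pairPt E (prim A) P = hD E A P := by
  unfold pairPt prim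
  rw [Finsupp.sum_single_index] <;> simp

theorem pairPt_decomp (E : EmbData K F) {α₁ α₂ : Type*} [Fintype α₁] [Fintype α₂]
    (A₁ : α₁ → Place K F) (A₂ : α₂ → Place K F) (P : Place K F) :
    pairPt E (∑ a, prim (A₁ a) - ∑ a, prim (A₂ a)) P
      = ∑ a, hD E (A₁ a) P - ∑ a, hD E (A₂ a) P := by
  rw [← pairPtHom_apply, map_sub, map_sum, map_sum]
  simp only [pairPtHom_apply, pairPt_prim]

/-! ### Decomposition of a divisor -/

theorem exists_decomp (B : Divisor K F) :
    ∃ (z₁ z₂ : ℕ) (A₁ : Fin z₁ → Place K F) (A₂ : Fin z₂ → Place K F),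
      B = ∑ a, prim (A₁ a) - ∑ a, prim (A₂ a) := by
  classical
  induction B using Finsupp.induction_linear with
  | zero => exact ⟨0, 0, Fin.elim0, Fin.elim0, by simp⟩
  | add B B' hB hB' =>
    obtain ⟨z₁, z₂, A₁, A₂, h⟩ := hB
    obtain ⟨z₁', z₂', A₁', A₂', h'⟩ := hB'
    refine ⟨z₁ + z₁', z₂ + z₂', Fin.append A₁ A₁', Fin.append A₂ A₂', ?_⟩
    rw [Fin.sum_univ_add, Fin.sum_univ_add]
    simp only [Fin.append_left, Fin.append_right]
    rw [h, h']
    abel
  | single A n =>
    rcases le_total 0 n with hn | hn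
    · refine ⟨n.toNat, 0, fun _ => A, Fin.elim0, ?_⟩
      simp only [Finset.sum_const, Finset.card_univ, Fintype.card_fin, Finset.univ_eq_empty,
        Finset.sum_empty, sub_zero]
      unfold prim
      rw [Finsupp.smul_single, nsmul_eq_mul, mul_one]
      congr 1
      exact (Int.toNat_of_nonneg hn).symm
    · refine ⟨0, (-n).toNat, Fin.elim0, fun _ => A, ?_⟩
      simp only [Finset.sum_const, Finset.card_univ, Fintype.card_fin, Finset.univ_eq_empty,
        Finset.sum_empty, zero_sub]
      unfold prim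
      rw [Finsupp.smul_single, nsmul_eq_mul, mul_one, ← Finsupp.single_neg]
      congr 1
      have := Int.toNat_of_nonneg (neg_nonneg.mpr hn)
      omega

/-! ### The core comparison -/

variable [IsAlgClosed K] [Algebra.IsAlgebraic ℚ K]

theorem whm_core (E : EmbData K F) (hA3 : MultislotStatement K) (hPt : PtStatement E)
    {ι α₁ α₂ : Type} [Fintype ι] [Fintype α₁] [Fintype α₂]
    (f : ι → F) (B : Divisor K F) (hf : ExactPole f B)
    (A₁ : α₁ → Place K F) (A₂ : α₂ → Place K F)
    (hB : B = ∑ a, prim (A₁ a) - ∑ a, prim (A₂ a)) :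
    ∃ C : ℝ, ∀ P : Place K F, (∀ a, P ≠ A₁ a) → (∀ a, P ≠ A₂ a) →
      |ht (ptD B f P) - (∑ a, hD E (A₁ a) P - ∑ a, hD E (A₂ a) P)| ≤ C := by
  classical
  have hpt := hPt.1
  set M : Divisor K F := E.m • prim E.vinf with hM
  -- the families
  let s₁ : (α₁ → Fin (E.r + 1) × Fin (E.r + 1)) → F := fun s => ∏ a, secFam E (A₁ a) (s a)
  let s₂ : (α₂ → Fin (E.r + 1) × Fin (E.r + 1)) → F := fun s => ∏ a, secFam E (A₂ a) (s a)
  let m₁ : (α₁ → Fin (E.r + 1)) → F := fun c => ∏ a, E.x (c a)
  let m₂ : (α₂ → Fin (E.r + 1)) → F := fun c => ∏ a, E.x (c a)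
  have hs₁ : ExactPole s₁ (∑ a, (M - prim (A₁ a))) :=
    ExactPole.pi fun a => exactPole_sec E hPt (A₁ a)
  have hs₂ : ExactPole s₂ (∑ a, (M - prim (A₂ a))) :=
    ExactPole.pi fun a => exactPole_sec E hPt (A₂ a)
  have hm₁ : ExactPole m₁ (∑ _a : α₁, M) := ExactPole.pi fun _ => exactPole_x E hpt
  have hm₂ : ExactPole m₂ (∑ _a : α₂, M) := ExactPole.pi fun _ => exactPole_x E hpt
  let g₁ : (α₁ → Fin (E.r + 1) × Fin (E.r + 1)) × (α₂ → Fin (E.r + 1)) → F :=
    fun p => s₁ p.1 * m₂ p.2
  have hg₁ : ExactPole g₁ (∑ a, (M - prim (A₁ a)) + ∑ _a : α₂, M) := hs₁.mul hm₂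
  let v₁ : ι × ((α₁ → Fin (E.r + 1) × Fin (E.r + 1)) × (α₂ → Fin (E.r + 1))) → F :=
    fun q => f q.1 * g₁ q.2
  have hv₁₀ : ExactPole v₁ (B + (∑ a, (M - prim (A₁ a)) + ∑ _a : α₂, M)) := hf.mul hg₁
  let v₂ : (α₂ → Fin (E.r + 1) × Fin (E.r + 1)) × (α₁ → Fin (E.r + 1)) → F :=
    fun p => s₂ p.1 * m₁ p.2
  have hv₂ : ExactPole v₂ (∑ a, (M - prim (A₂ a)) + ∑ _a : α₁, M) := hs₂.mul hm₁
  have hBB : B + (∑ a, (M - prim (A₁ a)) + ∑ _a : α₂, M)
      = ∑ a, (M - prim (A₂ a)) + ∑ _a : α₁, M := by
    rw [hB]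
    simp only [Finset.sum_sub_distrib]
    abel
  -- heights of the two blocks
  have H₁ : ∀ P : Place K F, (∀ a, P ≠ A₁ a) →
      ht (ptD (∑ a, (M - prim (A₂ a)) + ∑ _a : α₁, M) v₁ P)
        = ht (ptD B f P) + (∑ a, ht (wedge (E.pt (A₁ a)) (E.pt P))
          + (Fintype.card α₂ : ℝ) * ht (E.pt P)) := by
    intro P hP
    rw [← hBB, ht_ptD_mul hf hg₁ P, ht_ptD_mul hs₁ hm₂ P,
      ht_ptD_pi (fun a => exactPole_sec E hPt (A₁ a)) P,
      ht_ptD_pi (fun _ : α₂ => exactPole_x E hpt) P]
    congr 2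
    · exact Finset.sum_congr rfl fun a _ => ht_ptD_sec E hpt (A₁ a) P (hP a)
    · rw [Finset.sum_const, ht_ptD_x E hpt P, Finset.card_univ, nsmul_eq_mul]
  have H₂ : ∀ P : Place K F, (∀ a, P ≠ A₂ a) →
      ht (ptD (∑ a, (M - prim (A₂ a)) + ∑ _a : α₁, M) v₂ P)
        = ∑ a, ht (wedge (E.pt (A₂ a)) (E.pt P)) + (Fintype.card α₁ : ℝ) * ht (E.pt P) := by
    intro P hP
    rw [ht_ptD_mul hs₂ hm₁ P,
      ht_ptD_pi (fun a => exactPole_sec E hPt (A₂ a)) P,
      ht_ptD_pi (fun _ : α₁ => exactPole_x E hpt) P]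
    congr 1
    · exact Finset.sum_congr rfl fun a _ => ht_ptD_sec E hpt (A₂ a) P (hP a)
    · rw [Finset.sum_const, ht_ptD_x E hpt P, Finset.card_univ, nsmul_eq_mul]
  have hv₁ : ExactPole v₁ (∑ a, (M - prim (A₂ a)) + ∑ _a : α₁, M) := hBB ▸ hv₁₀
  -- the joint family
  set B' : Divisor K F := ∑ a, (M - prim (A₂ a)) + ∑ _a : α₁, M with hB'
  let v : (ι × ((α₁ → Fin (E.r + 1) × Fin (E.r + 1)) × (α₂ → Fin (E.r + 1)))) ⊕
      ((α₂ → Fin (E.r + 1) × Fin (E.r + 1)) × (α₁ → Fin (E.r + 1))) → F := Sum.elim v₁ v₂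
  have hvL : ∀ k, v k ∈ riemannRochSpace B' := by
    rintro (k | k)
    · exact hv₁.mem_L k
    · exact hv₂.mem_L k
  obtain ⟨C₁, hC₁⟩ := ht_ptD_le_of_exact hA3 v Sum.inl B' hvL hv₁
  obtain ⟨C₂, hC₂⟩ := ht_ptD_le_of_exact hA3 v Sum.inr B' hvL hv₂
  refine ⟨max C₁ C₂ + |∑ a, ht (E.pt (A₂ a)) - ∑ a, ht (E.pt (A₁ a))|, fun P hP₁ hP₂ => ?_⟩
  have h1 : ht (ptD B' v P) ≤ ht (ptD B' v₁ P) + C₁ := hC₁ P
  have h2 : ht (ptD B' v P) ≤ ht (ptD B' v₂ P) + C₂ := hC₂ P
  have h3 : ht (ptD B' v₁ P) ≤ ht (ptD B' v P) :=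
    H380.absLogHeight_comp_le Sum.inl (ptD B' v P) (fun _ => isIntegral_all _)
  have h4 : ht (ptD B' v₂ P) ≤ ht (ptD B' v P) :=
    H380.absLogHeight_comp_le Sum.inr (ptD B' v P) (fun _ => isIntegral_all _)
  have e1 := H₁ P hP₁
  have e2 := H₂ P hP₂
  have hD₁ : ∑ a, hD E (A₁ a) P = ∑ a, ht (E.pt (A₁ a)) + (Fintype.card α₁ : ℝ) * ht (E.pt P)
      - ∑ a, ht (wedge (E.pt (A₁ a)) (E.pt P)) := by
    simp only [hD, Finset.sum_sub_distrib, Finset.sum_add_distrib, Finset.sum_const,
      Finset.card_univ, nsmul_eq_mul]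
  have hD₂ : ∑ a, hD E (A₂ a) P = ∑ a, ht (E.pt (A₂ a)) + (Fintype.card α₂ : ℝ) * ht (E.pt P)
      - ∑ a, ht (wedge (E.pt (A₂ a)) (E.pt P)) := by
    simp only [hD, Finset.sum_sub_distrib, Finset.sum_add_distrib, Finset.sum_const,
      Finset.card_univ, nsmul_eq_mul]
  rw [hD₁, hD₂]
  have hmax₁ := le_max_left C₁ C₂
  have hmax₂ := le_max_right C₁ C₂
  have habs := abs_le.mp (le_refl |∑ a, ht (E.pt (A₂ a)) - ∑ a, ht (E.pt (A₁ a))|)
  rw [abs_le]
  constructor <;> linarith [habs.1, habs.2]

/-- **(WHM)** the Weil height machine for fixed divisors. -/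
theorem whm (E : EmbData K F) (hA3 : MultislotStatement K) (hPt : PtStatement E) :
    WHMStatement E := by
  classical
  intro ι _ f B hf
  obtain ⟨z₁, z₂, A₁, A₂, hB⟩ := exists_decomp B
  obtain ⟨C, hC⟩ := whm_core E hA3 hPt f B hf A₁ A₂ hB
  -- the finitely many exceptional places
  let S : Finset (Place K F) := Finset.univ.image A₁ ∪ Finset.univ.image A₂
  let g : Place K F → ℝ := fun P => |ht (fun i => valAt P (f i)) - pairPt E B P|
  refine ⟨max C 0 + ∑ P ∈ S, g P, fun P hP => ?_⟩
  have hsum : 0 ≤ ∑ Q ∈ S, g Q := Finset.sum_nonneg fun Q _ => abs_nonneg _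
  by_cases hPS : P ∈ S
  · have h1 : g P ≤ ∑ Q ∈ S, g Q := Finset.single_le_sum (fun Q _ => abs_nonneg _) hPS
    have h2 := le_max_right C 0
    show g P ≤ _
    linarith
  · have hP₁ : ∀ a, P ≠ A₁ a := fun a h =>
      hPS (Finset.mem_union_left _ (Finset.mem_image.mpr ⟨a, Finset.mem_univ a, h.symm⟩))
    have hP₂ : ∀ a, P ≠ A₂ a := fun a h =>
      hPS (Finset.mem_union_right _ (Finset.mem_image.mpr ⟨a, Finset.mem_univ a, h.symm⟩))
    have h := hC P hP₁ hP₂
    have hval : (fun i => valAt P (f i)) = ptD B f P := by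
      funext i
      rw [ptD_apply, hP, zpow_zero, mul_one]
    have hpair : pairPt E B P = ∑ a, hD E (A₁ a) P - ∑ a, hD E (A₂ a) P := by
      rw [hB]
      exact pairPt_decomp E A₁ A₂ P
    rw [hval, hpair]
    have h2 := le_max_left C 0
    linarith

end Main

/-! ## (GAUSS) from the machine

`gaussFor_of_whm` : `WHMStatement E → TanStatement E W → ∃ C, ∀ P, W P = 0 → |κ(P) - (W . P)| ≤ C`
for EVERY divisor `W` for which the tangent family exists (think `W = div (dt)`);
`gauss_of_whm` : the contract statement `HContract.GAUSSStatement E` once `deg W = 2 g - 2`.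
Proof: (WHM) for the tangent family (`B = 2 m ∞ + W`) and for the basis `E.x` (`B = m ∞`); the
single place `∞` is absorbed in the constant. -/

section Gauss

variable [Algebra.IsAlgebraic ℚ K]

theorem gaussFor_of_whm (E : EmbData K F) (hpt : ∀ P : Place K F, E.pt P ≠ 0)
    (hW : WHMStatement E) (W : Divisor K F) (hT : TanStatement E W) :
    ∃ C : ℝ, ∀ P : Place K F, W P = 0 → |kap E P - pairPt E W P| ≤ C := by
  classical
  obtain ⟨w, hw, htan⟩ := hT
  obtain ⟨C₁, hC₁⟩ := hW _ w _ hw
  obtain ⟨C₂, hC₂⟩ := hW _ E.x _ (exactPole_x E hpt)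
  refine ⟨max (C₁ + 2 * C₂) 0 + |kap E E.vinf - pairPt E W E.vinf|, fun P hP => ?_⟩
  have habs0 := abs_nonneg (kap E E.vinf - pairPt E W E.vinf)
  by_cases hPinf : P = E.vinf
  · subst hPinf
    have := le_max_right (C₁ + 2 * C₂) 0
    linarith
  have hm0 : (E.m • prim E.vinf : Divisor K F) P = 0 := by
    simp [prim, Ne.symm hPinf]
  have h2m0 : ((2 * E.m) • prim E.vinf + W : Divisor K F) P = 0 := by
    rw [Finsupp.add_apply, hP]
    simp [prim, Ne.symm hPinf]
  have h1 := hC₁ P h2m0
  have h2 := hC₂ P hm0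
  -- the tangent vector
  obtain ⟨c, hc, hwed⟩ := htan P hPinf hP
  have e1 : ht (wedge (E.pt P) (E.tn P)) = ht (fun p => valAt P (w p)) := by
    rw [hwed]
    exact H380.absLogHeight_smul (fun p => valAt P (w p)) (fun _ => isIntegral_all _) hc
      (isIntegral_all _)
  -- the point
  have e2 : ht (fun i => valAt P (E.x i)) = ht (E.pt P) := by
    rw [← ht_ptD_x E hpt P]
    congr 1
    funext i
    rw [ptD_apply, hm0, zpow_zero, mul_one]
  -- the pairing
  have e3 : pairPt E ((2 * E.m) • prim E.vinf + W) P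
      = 2 * pairPt E (E.m • prim E.vinf) P + pairPt E W P := by
    rw [← pairPtHom_apply, ← pairPtHom_apply, ← pairPtHom_apply, map_add, mul_nsmul, map_nsmul]
    simp
    ring
  rw [e2] at h2
  rw [← e1, e3] at h1
  have hk : kap E P = ht (wedge (E.pt P) (E.tn P)) - 2 * ht (E.pt P) := rfl
  rw [hk]
  have := le_max_left (C₁ + 2 * C₂) 0
  rw [abs_le] at h1 h2 ⊢
  constructor <;> linarith [h1.1, h1.2, h2.1, h2.2]

/-- **(GAUSS)** of the contract, from (WHM), the tangent family and the degree of `W`. -/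
theorem gauss_of_whm (E : EmbData K F) (hpt : ∀ P : Place K F, E.pt P ≠ 0)
    (hW : WHMStatement E) (W : Divisor K F) (hT : TanStatement E W)
    (hdeg : Divisor.degree W = 2 * (genusR K F : ℤ) - 2) : GAUSSStatement E := by
  obtain ⟨C, hC⟩ := gaussFor_of_whm E hpt hW W hT
  exact ⟨W, C, hdeg, hC⟩

end Gauss

end Fermat.Agent.S17.H320
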