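import Fermat.Agent.S17.H17.HContract
import Fermat.Agent.S17.H230.PlaceEval

/-!
# S17 / tower H — GAUSS sub-project: the WEIL HEIGHT MACHINE for fixed divisors (helper320)

Definitions only (FROZEN interface).

* `ExactPole f B` : the finite family `f : ι → F` lies in `L(B)` and generates `O(B)`:
  at every place `P` all `f i` have order `≥ -B P` and some `f i` has order exactly `-B P`.
* `WHMStatement E` : for every FIXED family `f` with `ExactPole f B`, the absolute height of the
  vector of values `(f i (P))_i` is `(B . P) + O(1)`, uniformly in all places `P` outside the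
  support of `B`; here `(B . P) = pairPt E B P = Σ_A B(A) hD(A, P)` is the distance pairing of
  the contract (`S17/H17/HContract.lean`).

Route (file `WHM.lean`): no `(E3)` is needed.  Two families generating the same `O(B')` have
heights differing by `O(1)` (Nullstellensatz on the cone of the joint family, whose points are
places: `H710.exists_place_of_onCone`); compare `f ⊗ (secant products of B⁺) ⊗ (monomials)` with
`(secant products of B⁻) ⊗ (monomials)` and use Segre + the definition of `hD`.
-/

set_option autoImplicit false

noncomputable section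

open AlgebraicCurve

namespace Fermat.Agent.S17.H320

open Fermat.Agent.Lib.RR Fermat.Agent.S17.HWall Fermat.Agent.S17.HContract

variable {K F : Type*} [Field K] [CharZero K] [Field F] [Algebra K F] [FF1 K F]

/-- The family `f` lies in `L(B)` and generates `O(B)` at every place. -/
def ExactPole {ι : Type*} (f : ι → F) (B : Divisor K F) : Prop :=
  ∀ P : Place K F, (∀ i, f i = 0 ∨ -B P ≤ P.ord (f i)) ∧ ∃ i, f i ≠ 0 ∧ P.ord (f i) = -B P

/-- **(WHM)** the Weil height machine for fixed divisors, in terms of the distance pairing. -/
def WHMStatement (E : EmbData K F) : Prop :=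
  ∀ (ι : Type) [Fintype ι] (f : ι → F) (B : Divisor K F), ExactPole f B →
    ∃ C : ℝ, ∀ P : Place K F, B P = 0 →
      |ht (fun i => Fermat.Agent.S17.H230.valAt P (f i)) - pairPt E B P| ≤ C

/-- **(TAN)** input of (GAUSS): a family `w` (think `w_jk = x_j ∂x_k - x_k ∂x_j`, `∂ = d/dt`)
generating `O(2 m ∞ + W)` (`W = div (dt)`), whose values at `P` are the Plücker coordinates of the
tangent line at `P`, for all `P ≠ ∞` outside the support of `W`. -/
def TanStatement (E : EmbData K F) (W : Divisor K F) : Prop :=
  ∃ w : Fin (E.r + 1) × Fin (E.r + 1) → F,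
    ExactPole w ((2 * E.m) • prim E.vinf + W) ∧
    ∀ P : Place K F, P ≠ E.vinf → W P = 0 →
      ∃ c : K, c ≠ 0 ∧ wedge (E.pt P) (E.tn P) = fun p => c * Fermat.Agent.S17.H230.valAt P (w p)

end Fermat.Agent.S17.H320
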